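/-
S27lib / U / AlgClosed  (helper7, Project D, block T2).

The ultrapower of an algebraically closed field is algebraically closed.
-/
import Mathlib

set_option autoImplicit false

noncomputable section

namespace Fermat.Agent.S27lib.U

open Filter Polynomial

universe u w

variable {ι : Type w} (U : Ultrafilter ι) (L : Type u) [Field L] [IsAlgClosed L]

/-- the ultrapower of an algebraically closed field is algebraically closed. -/
instance germ_isAlgClosed : IsAlgClosed (Germ (U : Filter ι) L) := by
  apply IsAlgClosed.of_exists_root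
  intro p hp hirr
  set m := p.natDegree with hm
  have hm0 : m ≠ 0 := fun h0 => by
    have := hirr.natDegree_pos
    omega
  -- representatives of the coefficients
  let f : ℕ → ι → L := fun k => Quotient.out (p.coeff k)
  have hf : ∀ k, ((f k : ι → L) : Germ (U : Filter ι) L) = p.coeff k := fun k =>
    Quotient.out_eq (p.coeff k)
  -- the component polynomials
  let q : ι → L[X] := fun i => X ^ m + ∑ k ∈ Finset.range m, C (f k i) * X ^ k
  have hqdeg : ∀ i, (q i).degree ≠ 0 := by
    intro i
    have hlt : (∑ k ∈ Finset.range m, C (f k i) * X ^ k : L[X]).degree < (m : WithBot ℕ) := by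
      rw [Polynomial.degree_lt_iff_coeff_zero]
      intro n hn
      rw [Polynomial.finsetSum_coeff]
      refine Finset.sum_eq_zero fun k hk => ?_
      rw [Polynomial.coeff_C_mul, Polynomial.coeff_X_pow, if_neg, mul_zero]
      have := Finset.mem_range.1 hk
      omega
    have : (q i).degree = (m : WithBot ℕ) := by
      show (X ^ m + ∑ k ∈ Finset.range m, C (f k i) * X ^ k : L[X]).degree = m
      rw [Polynomial.degree_add_eq_left_of_degree_lt (by rwa [Polynomial.degree_X_pow]),
        Polynomial.degree_X_pow]
    rw [this]
    exact_mod_cast hm0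
  have hroot : ∀ i, ∃ z : L, (q i).eval z = 0 := fun i => IsAlgClosed.exists_root (q i) (hqdeg i)
  choose z hz using hroot
  refine ⟨((z : ι → L) : Germ (U : Filter ι) L), ?_⟩
  have hp' : p = X ^ m + ∑ k ∈ Finset.range m, C (p.coeff k) * X ^ k := hp.as_sum
  rw [hp']
  simp only [eval_add, eval_pow, eval_X, eval_finsetSum, eval_mul, eval_C]
  have h1 : ((z : ι → L) : Germ (U : Filter ι) L) ^ m
      + ∑ k ∈ Finset.range m, p.coeff k * ((z : ι → L) : Germ (U : Filter ι) L) ^ k
      = Germ.coeRingHom (U : Filter ι) (z ^ m + ∑ k ∈ Finset.range m, f k * z ^ k) := by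
    rw [map_add, map_pow, map_sum]
    congr 1
    refine Finset.sum_congr rfl fun k _ => ?_
    rw [map_mul, map_pow, ← hf k]
    rfl
  rw [h1]
  have h2 : (z ^ m + ∑ k ∈ Finset.range m, f k * z ^ k : ι → L) = 0 := by
    funext i
    have := hz i
    simp only [q, eval_add, eval_pow, eval_X, eval_finsetSum, eval_mul, eval_C] at this
    simpa using this
  rw [h2, map_zero]

end Fermat.Agent.S27lib.U
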