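/-
S27lib / U / Branch  (helper7, Project D, block T2).

The set of finite branch values of a separating element of a function field over an algebraically
closed field of characteristic zero is finite (from the Riemann–Hurwitz lower bound).
-/
import Mathlib
import Fermat.Agent.S18lib.RRgen.Canonical
import Fermat.Agent.ProgramR.FunctionField.AlgClosed

set_option autoImplicit false
set_option linter.unusedSectionVars false
set_option linter.style.haveILetI false

noncomputable section

namespace Fermat.Agent.S27lib.U

open AlgebraicCurve IntermediateField Fermat.Agent.S18lib Fermat.Agent.ProgramR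

variable (K : Type*) [Field K] [IsAlgClosed K] [CharZero K] {F : Type*} [Field F] [Algebra K F]
  {x : F} (hx : Transcendental K x) [FiniteDimensional K⟮x⟯ F] [Algebra.IsSeparable K⟮x⟯ F]

include hx in
/-- the number of points of a fibre, in terms of a finset description. -/
theorem card_zerosOf_eq_card (a : K) (S : Finset (Place K F))
    (hS : ∀ v, v ∈ S ↔ 0 < v.ord (x - algebraMap K F a)) :
    Nat.card (Tame.zerosOf (K := K) (x - algebraMap K F a)) = S.card := by
  have : Tame.zerosOf (K := K) (x - algebraMap K F a) = (S : Set (Place K F)) := by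
    ext v
    rw [Tame.mem_zerosOf, Finset.mem_coe, hS]
  rw [this, Nat.card_coe_set_eq, Set.ncard_coe_finset]

theorem card_polesOf_eq_card (S : Finset (Place K F)) (hS : ∀ v, v ∈ S ↔ v.ord x < 0) :
    Nat.card (Tame.polesOf (K := K) x) = S.card := by
  have : Tame.polesOf (K := K) x = (S : Set (Place K F)) := by
    ext v
    rw [Tame.mem_polesOf, Finset.mem_coe, hS]
  rw [this, Nat.card_coe_set_eq, Set.ncard_coe_finset]

include hx in
/-- a fibre has at most `n` points, and at most `n - 1` over a branch value. -/
theorem card_zerosOf_le (a : K) :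
    (Nat.card (Tame.zerosOf (K := K) (x - algebraMap K F a)) : ℤ) ≤ Module.finrank K⟮x⟯ F ∧
      ((∃ P : Place K F, 1 < P.ord (x - algebraMap K F a)) →
        (Nat.card (Tame.zerosOf (K := K) (x - algebraMap K F a)) : ℤ) + 1
          ≤ Module.finrank K⟮x⟯ F) := by
  classical
  set S : Finset (Place K F) := (FF.finite_fibre x hx a).toFinset with hSdef
  have hS : ∀ v, v ∈ S ↔ 0 < v.ord (x - algebraMap K F a) := fun v => by
    rw [hSdef, Set.Finite.mem_toFinset]; rfl
  rw [card_zerosOf_eq_card K hx a S hS]
  have hsum := FF.sum_fibre_ord_sub_one x hx a S hS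
  have hnn : ∀ v ∈ S, 0 ≤ v.ord (x - algebraMap K F a) - 1 := fun v hv => by
    have := (hS v).1 hv
    omega
  constructor
  · have := Finset.sum_nonneg hnn
    omega
  · rintro ⟨P, hP⟩
    have hPS : P ∈ S := (hS P).2 (by omega)
    have h1 : P.ord (x - algebraMap K F a) - 1 ≤
        ∑ v ∈ S, (v.ord (x - algebraMap K F a) - 1) :=
      Finset.single_le_sum hnn hPS
    omega

include hx in
theorem card_polesOf_le :
    (Nat.card (Tame.polesOf (K := K) x) : ℤ) ≤ Module.finrank K⟮x⟯ F := by
  classical
  set S : Finset (Place K F) := (FF.finite_poles x hx).toFinset with hSdef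
  have hS : ∀ v, v ∈ S ↔ v.ord x < 0 := fun v => by
    rw [hSdef, Set.Finite.mem_toFinset]; rfl
  rw [card_polesOf_eq_card K S hS]
  have hsum := FF.sum_poles_ord x hx S hS
  have h1 : ∑ v ∈ S, (1 : ℤ) ≤ ∑ v ∈ S, (-v.ord x) :=
    Finset.sum_le_sum fun v hv => by
      have := (hS v).1 hv
      omega
  simp only [Finset.sum_const, nsmul_eq_mul, mul_one] at h1
  omega

include hx in
/-- **the set of finite branch values is finite.** -/
theorem finite_branchValues :
    {a : K | ∃ P : Place K F, 1 < P.ord (x - algebraMap K F a)}.Finite := by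
  classical
  by_contra hinf
  have hinf' : {a : K | ∃ P : Place K F, 1 < P.ord (x - algebraMap K F a)}.Infinite := hinf
  obtain ⟨T, hT, hcard⟩ := hinf'.exists_subset_card_eq (2 * RRgen.Canonical.genusOf K hx + 2 * Module.finrank K⟮x⟯ F + 1)
  have hlow := RRgen.Canonical.rhLower_genusOf K hx T
  have h1 : (T.card : ℤ) ≤
      ∑ b ∈ T, ((Module.finrank K⟮x⟯ F : ℤ) - Nat.card (Tame.zerosOf (K := K) (x - algebraMap K F b))) := by
    have : ∑ b ∈ T, (1 : ℤ) ≤
        ∑ b ∈ T, ((Module.finrank K⟮x⟯ F : ℤ) - Nat.card (Tame.zerosOf (K := K) (x - algebraMap K F b))) :=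
      Finset.sum_le_sum fun b hb => by
        have := (card_zerosOf_le K hx b).2 (hT (Finset.mem_coe.2 hb))
        omega
    simpa using this
  have h2 := card_polesOf_le K hx
  have h3 : (T.card : ℤ) = 2 * (RRgen.Canonical.genusOf K hx : ℤ) + 2 * (Module.finrank K⟮x⟯ F : ℤ) + 1 := by exact_mod_cast hcard
  omega

end Fermat.Agent.S27lib.U
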