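/-
S27lib / U / Basic  (helper7, Project D, block T2 = ultrapower transfer).

* elementary facts on ultrafilters (`∀ᶠ` over a finite set of values is a.e. constant);
* `UFam U K₀ F'`: an *ultra-family of curves*: a function field `F'` over the ultrapower
  `K* = Germ U K₀` together with component function fields `Fc i / K₀` and an a.e. ring
  homomorphism `comp : F' → ∀ i, Fc i`;
* first consequences (components of inverses, of nonzero elements, of constants).
-/
import Mathlib
import Fermat.Agent.S18lib.Setup.CurveRR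
import Fermat.Agent.S18lib.RRgen.Canonical

set_option autoImplicit false
set_option linter.unusedSectionVars false
set_option linter.style.haveILetI false

noncomputable section

namespace Fermat.Agent.S27lib.U

open AlgebraicCurve Filter IntermediateField

universe u v w

/-! ### ultrafilter pigeonhole -/

section Ultra

variable {ι : Type w} (U : Ultrafilter ι)

/-- a sequence with values a.e. in a finite set is a.e. constant. -/
theorem exists_eventually_eq_of_finite {β : Type*} {s : Set β} (hs : s.Finite) {f : ι → β}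
    (h : ∀ᶠ i in (U : Filter ι), f i ∈ s) : ∃ b ∈ s, ∀ᶠ i in (U : Filter ι), f i = b := by
  have h' : ∀ᶠ i in (U : Filter ι), ∃ b ∈ s, f i = b := h.mono fun i hi => ⟨f i, hi, rfl⟩
  exact (Ultrafilter.eventually_exists_mem_iff hs).1 h'

/-- a bounded integer sequence is a.e. constant. -/
theorem exists_eventually_eq_int {f : ι → ℤ} {a b : ℤ}
    (h : ∀ᶠ i in (U : Filter ι), a ≤ f i ∧ f i ≤ b) :
    ∃ n : ℤ, a ≤ n ∧ n ≤ b ∧ ∀ᶠ i in (U : Filter ι), f i = n := by
  obtain ⟨n, hn, hev⟩ := exists_eventually_eq_of_finite U (Set.finite_Icc a b)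
    (h.mono fun i hi => Set.mem_Icc.2 hi)
  exact ⟨n, (Set.mem_Icc.1 hn).1, (Set.mem_Icc.1 hn).2, hev⟩

/-- a.e. constants are unique. -/
theorem eventually_const_unique {β : Type*} {f : ι → β} {a b : β}
    (ha : ∀ᶠ i in (U : Filter ι), f i = a) (hb : ∀ᶠ i in (U : Filter ι), f i = b) : a = b := by
  obtain ⟨i, hi⟩ := (ha.and hb).exists
  exact hi.1.symm.trans hi.2

/-- "not a.e." is "a.e. not". -/
theorem eventually_not_of_not {p : ι → Prop} (h : ¬ ∀ᶠ i in (U : Filter ι), p i) :
    ∀ᶠ i in (U : Filter ι), ¬ p i :=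
  Ultrafilter.eventually_not.2 h

/-- the ultrapower of a ring of characteristic zero has characteristic zero. -/
instance germ_charZero {R : Type*} [AddGroupWithOne R] [CharZero R] :
    CharZero (Germ (U : Filter ι) R) where
  cast_injective := by
    intro m n h
    have h' : ((m : R) : Germ (U : Filter ι) R) = ((n : R) : Germ (U : Filter ι) R) := h
    rw [Germ.const_inj] at h'
    exact Nat.cast_injective h'

end Ultra

/-! ### ultra-families of curves -/

/-- An **ultra-family of curves**: `F'` is a field over the ultrapower `Germ U K₀`; for every index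
`i` a function field `Fc i` over `K₀`, finite separable over `K₀(xc i)`; `comp` is a ring
homomorphism up to `U`-a.e. equality, compatible with constants and with the separating elements;
the degrees of the components are bounded by the degree of `F'`, and the orders of the components of
a nonzero element are uniformly bounded below. -/
structure UFam {ι : Type w} (U : Ultrafilter ι) (K₀ : Type u) [Field K₀]
    (F' : Type v) [Field F'] [Algebra (Germ (U : Filter ι) K₀) F'] where
  /-- the component fields -/
  Fc : ι → Type u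
  /-- field structure of the components -/
  instField : ∀ i, Field (Fc i)
  /-- the components are `K₀`-algebras -/
  instAlgebra : ∀ i, Algebra K₀ (Fc i)
  /-- the component map -/
  comp : F' → ∀ i, Fc i
  comp_add : ∀ a b : F', ∀ᶠ i in (U : Filter ι), comp (a + b) i = comp a i + comp b i
  comp_mul : ∀ a b : F', ∀ᶠ i in (U : Filter ι), comp (a * b) i = comp a i * comp b i
  comp_one : ∀ᶠ i in (U : Filter ι), comp 1 i = 1
  comp_const : ∀ c : ι → K₀, ∀ᶠ i in (U : Filter ι),
    comp (algebraMap (Germ (U : Filter ι) K₀) F' (c : Germ (U : Filter ι) K₀)) i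
      = algebraMap K₀ (Fc i) (c i)
  /-- the separating element of `F'` -/
  x : F'
  /-- the separating elements of the components -/
  xc : ∀ i, Fc i
  comp_x : ∀ᶠ i in (U : Filter ι), comp x i = xc i
  transc_x : Transcendental (Germ (U : Filter ι) K₀) x
  finite_x : FiniteDimensional (Germ (U : Filter ι) K₀)⟮x⟯ F'
  sep_x : Algebra.IsSeparable (Germ (U : Filter ι) K₀)⟮x⟯ F'
  transc_xc : ∀ i, Transcendental K₀ (xc i)
  finite_xc : ∀ i, FiniteDimensional K₀⟮xc i⟯ (Fc i)
  sep_xc : ∀ i, Algebra.IsSeparable K₀⟮xc i⟯ (Fc i)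
  finrank_le : ∀ᶠ i in (U : Filter ι),
    Module.finrank K₀⟮xc i⟯ (Fc i) ≤ Module.finrank (Germ (U : Filter ι) K₀)⟮x⟯ F'
  /-- Step A: uniform lower bound for the orders of the components. -/
  bounded : ∀ h : F', h ≠ 0 → ∃ B : ℤ, ∀ᶠ i in (U : Filter ι),
    ∀ Q : Place K₀ (Fc i), -B ≤ Q.ord (comp h i)

namespace UFam

attribute [instance] UFam.instField UFam.instAlgebra UFam.finite_x UFam.sep_x UFam.finite_xc
  UFam.sep_xc

variable {ι : Type w} {U : Ultrafilter ι} {K₀ : Type u} [Field K₀]
  {F' : Type v} [Field F'] [Algebra (Germ (U : Filter ι) K₀) F'] (S : UFam U K₀ F')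

local notation "K*" => Germ (U : Filter ι) K₀

theorem comp_zero : ∀ᶠ i in (U : Filter ι), S.comp 0 i = 0 := by
  have h := S.comp_add 0 0
  rw [add_zero] at h
  exact h.mono fun i hi => by simpa using hi

theorem comp_ne_zero {h : F'} (hh : h ≠ 0) : ∀ᶠ i in (U : Filter ι), S.comp h i ≠ 0 := by
  have h1 := S.comp_mul h h⁻¹
  rw [mul_inv_cancel₀ hh] at h1
  filter_upwards [h1, S.comp_one] with i hi h1i h0
  rw [h1i, h0, zero_mul] at hi
  exact one_ne_zero hi

theorem comp_inv (h : F') : ∀ᶠ i in (U : Filter ι), S.comp h⁻¹ i = (S.comp h i)⁻¹ := by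
  rcases eq_or_ne h 0 with rfl | hh
  · rw [inv_zero]
    exact S.comp_zero.mono fun i hi => by rw [hi, inv_zero]
  · have h1 := S.comp_mul h h⁻¹
    rw [mul_inv_cancel₀ hh] at h1
    filter_upwards [h1, S.comp_one] with i hi h1i
    rw [h1i] at hi
    exact eq_inv_of_mul_eq_one_right hi.symm

theorem comp_neg (h : F') : ∀ᶠ i in (U : Filter ι), S.comp (-h) i = -S.comp h i := by
  have h1 := S.comp_add h (-h)
  rw [add_neg_cancel] at h1
  filter_upwards [h1, S.comp_zero] with i hi h0
  rw [h0] at hi
  exact (neg_eq_of_add_eq_zero_right hi.symm).symm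

theorem comp_sub (a b : F') :
    ∀ᶠ i in (U : Filter ι), S.comp (a - b) i = S.comp a i - S.comp b i := by
  have h1 := S.comp_add a (-b)
  filter_upwards [h1, S.comp_neg b] with i hi hn
  rw [sub_eq_add_neg, hi, hn, sub_eq_add_neg]

theorem comp_div (a b : F') :
    ∀ᶠ i in (U : Filter ι), S.comp (a / b) i = S.comp a i / S.comp b i := by
  filter_upwards [S.comp_mul a b⁻¹, S.comp_inv b] with i hi hn
  rw [div_eq_mul_inv, hi, hn, div_eq_mul_inv]

theorem comp_pow (a : F') (n : ℕ) :
    ∀ᶠ i in (U : Filter ι), S.comp (a ^ n) i = S.comp a i ^ n := by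
  induction n with
  | zero => simpa using S.comp_one
  | succ n ih =>
    filter_upwards [ih, S.comp_mul (a ^ n) a] with i hi hm
    rw [pow_succ, hm, hi, pow_succ]

theorem comp_zpow (a : F') (n : ℤ) :
    ∀ᶠ i in (U : Filter ι), S.comp (a ^ n) i = S.comp a i ^ n := by
  cases n with
  | ofNat n => simpa using S.comp_pow a n
  | negSucc n =>
    filter_upwards [S.comp_inv (a ^ (n + 1)), S.comp_pow a (n + 1)] with i hi hp
    rw [zpow_negSucc, hi, hp, zpow_negSucc]

/-- injectivity of the component map. -/
theorem eq_zero_of_comp {h : F'} (hh : ∀ᶠ i in (U : Filter ι), S.comp h i = 0) : h = 0 := by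
  by_contra hne
  obtain ⟨i, h1, h2⟩ := ((S.comp_ne_zero hne).and hh).exists
  exact h1 h2

theorem eq_of_comp {a b : F'} (hh : ∀ᶠ i in (U : Filter ι), S.comp a i = S.comp b i) : a = b := by
  rw [← sub_eq_zero]
  apply S.eq_zero_of_comp
  filter_upwards [hh, S.comp_sub a b] with i hi hs
  rw [hs, hi, sub_self]

/-- a finite sum. -/
theorem comp_sum {κ : Type*} (s : Finset κ) (f : κ → F') :
    ∀ᶠ i in (U : Filter ι), S.comp (∑ k ∈ s, f k) i = ∑ k ∈ s, S.comp (f k) i := by
  classical
  induction s using Finset.induction_on with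
  | empty => simpa using S.comp_zero
  | insert a s ha ih =>
    filter_upwards [ih, S.comp_add (f a) (∑ k ∈ s, f k)] with i hi hadd
    rw [Finset.sum_insert ha, Finset.sum_insert ha, hadd, hi]

/-- components of `c • h`. -/
theorem comp_smul (c : ι → K₀) (h : F') : ∀ᶠ i in (U : Filter ι),
    S.comp ((c : K*) • h) i = c i • S.comp h i := by
  filter_upwards [S.comp_mul (algebraMap K* F' (c : K*)) h, S.comp_const c] with i hi hc
  rw [Algebra.smul_def, hi, hc, Algebra.smul_def]

end UFam

end Fermat.Agent.S27lib.U
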