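/-
S27lib / U / Val  (helper7, Project D, block T2).

Steps B, C of the ultrapower transfer: a sequence `Q i` of places of the components of an
ultra-family defines an integer valued valuation `wOrd Q` on `F'` (the a.e. value of
`ord_{Q i} (comp h i)`), its valuation ring is a place `placeOf Q` of `F' / K*`, and
`wOrd Q = c • ord_{placeOf Q}` for a positive integer `c = mult Q`.
-/
import Mathlib
import Fermat.Agent.S27lib.U.Basic
import Fermat.Agent.S18lib.Cech.CurveBasics
import Fermat.Agent.S18lib.Tame.ZeroPole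
import Fermat.Agent.ProgramR.FunctionField.AlgClosed

set_option autoImplicit false
set_option linter.unusedSectionVars false
set_option linter.style.haveILetI false

noncomputable section

namespace Fermat.Agent.S27lib.U

open AlgebraicCurve Filter IntermediateField Fermat.Agent.S18lib Fermat.Agent.ProgramR

universe u v w

namespace UFam

variable {ι : Type w} {U : Ultrafilter ι} {K₀ : Type u} [Field K₀]
  {F' : Type v} [Field F'] [Algebra (Germ (U : Filter ι) K₀) F'] (S : UFam U K₀ F')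

local notation "K*" => Germ (U : Filter ι) K₀

/-- a sequence of places of the components. -/
abbrev PSeq : Type (max u w) := ∀ i, Place K₀ (S.Fc i)

/-- two-sided uniform bound for the orders of the components of a nonzero element. -/
theorem exists_abs_bound {h : F'} (hh : h ≠ 0) : ∃ B : ℤ, ∀ᶠ i in (U : Filter ι),
    ∀ Q : Place K₀ (S.Fc i), -B ≤ Q.ord (S.comp h i) ∧ Q.ord (S.comp h i) ≤ B := by
  obtain ⟨B₁, h₁⟩ := S.bounded h hh
  obtain ⟨B₂, h₂⟩ := S.bounded h⁻¹ (inv_ne_zero hh)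
  refine ⟨max B₁ B₂, ?_⟩
  filter_upwards [h₁, h₂, S.comp_inv h] with i hi₁ hi₂ hinv Q
  have e₁ := hi₁ Q
  have e₂ := hi₂ Q
  rw [hinv, Q.ord_inv] at e₂
  have := le_max_left B₁ B₂
  have := le_max_right B₁ B₂
  constructor <;> omega

/-- the orders of the components of a nonzero element along a sequence of places are a.e.
constant. -/
theorem exists_wOrd (Q : S.PSeq) {h : F'} (hh : h ≠ 0) :
    ∃ n : ℤ, ∀ᶠ i in (U : Filter ι), (Q i).ord (S.comp h i) = n := by
  obtain ⟨B, hB⟩ := S.exists_abs_bound hh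
  obtain ⟨n, -, -, hn⟩ := exists_eventually_eq_int U (f := fun i => (Q i).ord (S.comp h i))
    (a := -B) (b := B) (hB.mono fun i hi => hi (Q i))
  exact ⟨n, hn⟩

open Classical in
/-- the limit valuation along a sequence of places. -/
def wOrd (Q : S.PSeq) (h : F') : ℤ :=
  if hh : h = 0 then 0 else (S.exists_wOrd Q hh).choose

@[simp] theorem wOrd_zero (Q : S.PSeq) : S.wOrd Q 0 = 0 := by simp [wOrd]

theorem wOrd_spec (Q : S.PSeq) {h : F'} (hh : h ≠ 0) :
    ∀ᶠ i in (U : Filter ι), (Q i).ord (S.comp h i) = S.wOrd Q h := by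
  rw [wOrd, dif_neg hh]
  exact (S.exists_wOrd Q hh).choose_spec

theorem wOrd_eq_of_eventually (Q : S.PSeq) {h : F'} (hh : h ≠ 0) {n : ℤ}
    (hn : ∀ᶠ i in (U : Filter ι), (Q i).ord (S.comp h i) = n) : S.wOrd Q h = n :=
  eventually_const_unique U (S.wOrd_spec Q hh) hn

/-- `wOrd` only depends on the a.e. class of the sequence. -/
theorem wOrd_congr {Q Q' : S.PSeq} (hQ : ∀ᶠ i in (U : Filter ι), Q i = Q' i) (h : F') :
    S.wOrd Q h = S.wOrd Q' h := by
  rcases eq_or_ne h 0 with rfl | hh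
  · simp
  apply S.wOrd_eq_of_eventually Q hh
  filter_upwards [hQ, S.wOrd_spec Q' hh] with i hi hs
  rw [hi, hs]

theorem wOrd_mul (Q : S.PSeq) {a b : F'} (ha : a ≠ 0) (hb : b ≠ 0) :
    S.wOrd Q (a * b) = S.wOrd Q a + S.wOrd Q b := by
  apply S.wOrd_eq_of_eventually Q (mul_ne_zero ha hb)
  filter_upwards [S.wOrd_spec Q ha, S.wOrd_spec Q hb, S.comp_mul a b, S.comp_ne_zero ha,
    S.comp_ne_zero hb] with i h1 h2 hm ha' hb'
  rw [hm, (Q i).ord_mul ha' hb', h1, h2]

theorem wOrd_one (Q : S.PSeq) : S.wOrd Q 1 = 0 := by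
  apply S.wOrd_eq_of_eventually Q one_ne_zero
  filter_upwards [S.comp_one] with i hi
  rw [hi, Place.ord_one]

theorem wOrd_inv (Q : S.PSeq) (a : F') : S.wOrd Q a⁻¹ = -S.wOrd Q a := by
  rcases eq_or_ne a 0 with rfl | ha
  · simp
  have h := S.wOrd_mul Q ha (inv_ne_zero ha)
  rw [mul_inv_cancel₀ ha, wOrd_one] at h
  omega

theorem wOrd_pow (Q : S.PSeq) (a : F') (n : ℕ) : S.wOrd Q (a ^ n) = n * S.wOrd Q a := by
  rcases eq_or_ne a 0 with rfl | ha
  · rcases Nat.eq_zero_or_pos n with rfl | hn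
    · simp [wOrd_one]
    · simp [zero_pow hn.ne']
  induction n with
  | zero => simp [wOrd_one]
  | succ n ih =>
    rw [pow_succ, S.wOrd_mul Q (pow_ne_zero n ha) ha, ih]
    push_cast
    ring

theorem wOrd_zpow (Q : S.PSeq) (a : F') (n : ℤ) : S.wOrd Q (a ^ n) = n * S.wOrd Q a := by
  cases n with
  | ofNat n => simpa using S.wOrd_pow Q a n
  | negSucc n =>
    rw [zpow_negSucc, wOrd_inv, wOrd_pow, Int.negSucc_eq]
    push_cast
    ring

theorem wOrd_neg (Q : S.PSeq) (a : F') : S.wOrd Q (-a) = S.wOrd Q a := by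
  rcases eq_or_ne a 0 with rfl | ha
  · simp
  apply S.wOrd_eq_of_eventually Q (neg_ne_zero.2 ha)
  filter_upwards [S.wOrd_spec Q ha, S.comp_neg a] with i h1 hn
  rw [hn, Cech.ord_neg, h1]

/-- nonzero constants have limit order `0`. -/
theorem wOrd_const (Q : S.PSeq) (c : K*) : S.wOrd Q (algebraMap K* F' c) = 0 := by
  rcases eq_or_ne c 0 with rfl | hc
  · simp
  induction c using Germ.inductionOn with
  | _ f =>
    apply S.wOrd_eq_of_eventually Q ((map_ne_zero _).2 hc)
    filter_upwards [S.comp_const f] with i hi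
    rw [hi, Cech.ord_const]

/-- the ultrametric inequality. -/
theorem wOrd_add_ge (Q : S.PSeq) {a b : F'} {n : ℤ} (ha : n ≤ S.wOrd Q a) (hb : n ≤ S.wOrd Q b)
    (hab : a + b ≠ 0) (ha0 : a ≠ 0) (hb0 : b ≠ 0) : n ≤ S.wOrd Q (a + b) := by
  obtain ⟨i, h1, h2, h3, h4, h5⟩ := ((S.wOrd_spec Q ha0).and ((S.wOrd_spec Q hb0).and
    ((S.wOrd_spec Q hab).and ((S.comp_add a b).and (S.comp_ne_zero hab))))).exists
  have := Cech.ord_add_ge (Q i) (f := S.comp a i) (g := S.comp b i) (n := n)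
    (Or.inr (by rw [h1]; exact ha)) (Or.inr (by rw [h2]; exact hb))
  rw [← h4] at this
  rcases this with h0 | h0
  · exact absurd h0 h5
  · rwa [h3] at h0

/-- the valuation ring of the limit valuation. -/
def OQ (Q : S.PSeq) : ValuationSubring F' where
  carrier := {h | 0 ≤ S.wOrd Q h}
  mul_mem' := by
    intro a b ha hb
    rcases eq_or_ne a 0 with rfl | ha0
    · simp
    rcases eq_or_ne b 0 with rfl | hb0
    · simp
    show 0 ≤ S.wOrd Q (a * b)
    rw [S.wOrd_mul Q ha0 hb0]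
    exact add_nonneg ha hb
  one_mem' := by
    show 0 ≤ S.wOrd Q 1
    rw [wOrd_one]
  add_mem' := by
    intro a b ha hb
    rcases eq_or_ne a 0 with rfl | ha0
    · simpa using hb
    rcases eq_or_ne b 0 with rfl | hb0
    · simpa using ha
    rcases eq_or_ne (a + b) 0 with h0 | h0
    · show 0 ≤ S.wOrd Q (a + b)
      rw [h0]; simp
    exact S.wOrd_add_ge Q ha hb h0 ha0 hb0
  zero_mem' := by
    show 0 ≤ S.wOrd Q 0
    simp
  neg_mem' := by
    intro a ha
    show 0 ≤ S.wOrd Q (-a)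
    rw [wOrd_neg]
    exact ha
  mem_or_inv_mem' := by
    intro a
    rcases le_total 0 (S.wOrd Q a) with h | h
    · exact Or.inl h
    · right
      show 0 ≤ S.wOrd Q a⁻¹
      rw [wOrd_inv]
      omega

theorem mem_OQ (Q : S.PSeq) {h : F'} : h ∈ S.OQ Q ↔ 0 ≤ S.wOrd Q h := Iff.rfl

theorem OQ_congr {Q Q' : S.PSeq} (hQ : ∀ᶠ i in (U : Filter ι), Q i = Q' i) : S.OQ Q = S.OQ Q' := by
  ext h
  rw [mem_OQ, mem_OQ, S.wOrd_congr hQ]

/-- every ideal of `OQ` is principal. -/
theorem isPrincipalIdealRing_OQ (Q : S.PSeq) : IsPrincipalIdealRing (S.OQ Q) := by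
  classical
  refine ⟨fun I => ?_⟩
  by_cases hI : I = ⊥
  · rw [hI]; exact bot_isPrincipal
  obtain ⟨a, haI, ha0⟩ := Submodule.exists_mem_ne_zero_of_ne_bot hI
  -- the set of values of nonzero elements of `I`
  let P : ℕ → Prop := fun n => ∃ b : S.OQ Q, b ∈ I ∧ b ≠ 0 ∧ S.wOrd Q (b : F') = n
  have hP : ∃ n, P n := by
    have hpos : 0 ≤ S.wOrd Q (a : F') := a.2
    obtain ⟨n, hn⟩ := Int.eq_ofNat_of_zero_le hpos
    exact ⟨n, a, haI, ha0, hn⟩
  obtain ⟨b, hbI, hb0, hbn⟩ := Nat.find_spec hP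
  have hb0' : (b : F') ≠ 0 := fun h => hb0 (Subtype.ext h)
  refine ⟨⟨b, ?_⟩⟩
  apply le_antisymm
  · intro c hc
    rcases eq_or_ne c 0 with rfl | hc0
    · exact Submodule.zero_mem _
    have hc0' : (c : F') ≠ 0 := fun h => hc0 (Subtype.ext h)
    have hcpos : 0 ≤ S.wOrd Q (c : F') := c.2
    obtain ⟨m, hm⟩ := Int.eq_ofNat_of_zero_le hcpos
    have hmin : Nat.find hP ≤ m := Nat.find_min' hP ⟨c, hc, hc0, hm⟩
    have hq : (c : F') / (b : F') ∈ S.OQ Q := by
      rw [mem_OQ, div_eq_mul_inv, S.wOrd_mul Q hc0' (inv_ne_zero hb0'), wOrd_inv, hm, hbn]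
      omega
    rw [Submodule.mem_span_singleton]
    refine ⟨⟨_, hq⟩, ?_⟩
    apply Subtype.ext
    show (c : F') / (b : F') * (b : F') = c
    field_simp
  · rw [Submodule.span_singleton_le_iff_mem]
    exact hbI

variable [IsAlgClosed K₀]

/-- the limit valuation is non-trivial. -/
theorem exists_wOrd_neg (Q : S.PSeq) : ∃ h : F', S.wOrd Q h < 0 := by
  classical
  have hx0 : S.x ≠ 0 := fun h => S.transc_x (h ▸ isAlgebraic_zero)
  rcases (Ultrafilter.em U fun i => (Q i).ord (S.xc i) < 0) with hpole | hreg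
  · refine ⟨S.x, ?_⟩
    obtain ⟨i, h1, h2, h3⟩ := (hpole.and ((S.wOrd_spec Q hx0).and S.comp_x)).exists
    rw [h3] at h2
    omega
  · -- the value of `xc i` at `Q i`
    have hval : ∀ i, ∃ a : K₀, ¬ (Q i).ord (S.xc i) < 0 →
        0 < (Q i).ord (S.xc i - algebraMap K₀ (S.Fc i) a) := by
      intro i
      by_cases hi : (Q i).ord (S.xc i) < 0
      · exact ⟨0, fun h => absurd hi h⟩
      · have hmem : S.xc i ∈ (Q i).toValuationSubring :=
          (FF.mem_iff_ord_nonneg (Q i) _).2 (not_lt.1 hi)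
        obtain ⟨a, ha⟩ := FF.exists_sub_mem_maximalIdeal (S.xc i) (Q i) ⟨S.xc i, hmem⟩
        refine ⟨a, fun _ => ?_⟩
        have hne : S.xc i - algebraMap K₀ (S.Fc i) a ≠ 0 := by
          intro h0
          apply S.transc_xc i
          rw [sub_eq_zero.1 h0]
          exact isAlgebraic_algebraMap a
        rw [FF.mem_maximalIdeal_iff] at ha
        rcases ha with h0 | hpos
        · exact absurd (by simpa using congrArg Subtype.val h0) hne
        · simpa using hpos
    choose a ha using hval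
    set t : F' := S.x - algebraMap K* F' (a : K*) with ht
    have ht0 : t ≠ 0 := by
      intro h0
      apply S.transc_x
      rw [sub_eq_zero.1 h0]
      exact isAlgebraic_algebraMap _
    refine ⟨t⁻¹, ?_⟩
    rw [wOrd_inv]
    obtain ⟨i, h1, h2, h3, h4, h5⟩ := (hreg.and ((S.wOrd_spec Q ht0).and
      ((S.comp_sub S.x (algebraMap K* F' (a : K*))).and (S.comp_x.and (S.comp_const a))))).exists
    rw [h3, h4, h5] at h2
    have := ha i h1
    omega

/-- the place of `F' / K*` attached to a sequence of places of the components. -/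
def placeOf (Q : S.PSeq) : Place K* F' where
  toValuationSubring := S.OQ Q
  algebraMap_mem' := fun c => by
    rw [mem_OQ, wOrd_const]
  ne_top' := by
    intro h
    obtain ⟨f, hf⟩ := S.exists_wOrd_neg Q
    have : f ∈ S.OQ Q := by rw [h]; exact ValuationSubring.mem_top f
    rw [mem_OQ] at this
    omega
  isPrincipalIdealRing' := S.isPrincipalIdealRing_OQ Q

@[simp] theorem placeOf_toValuationSubring (Q : S.PSeq) :
    (S.placeOf Q).toValuationSubring = S.OQ Q := rfl

theorem placeOf_congr {Q Q' : S.PSeq} (hQ : ∀ᶠ i in (U : Filter ι), Q i = Q' i) :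
    S.placeOf Q = S.placeOf Q' :=
  Place.ext (S.OQ_congr hQ)

/-- units of `OQ` have limit order `0`. -/
theorem wOrd_unit (Q : S.PSeq) (u : (S.OQ Q)ˣ) : S.wOrd Q ((u : S.OQ Q) : F') = 0 := by
  have h1 : 0 ≤ S.wOrd Q ((u : S.OQ Q) : F') := (u : S.OQ Q).2
  have h2 : 0 ≤ S.wOrd Q (((u⁻¹ : (S.OQ Q)ˣ) : S.OQ Q) : F') := ((u⁻¹ : (S.OQ Q)ˣ) : S.OQ Q).2
  have h3 : (((u⁻¹ : (S.OQ Q)ˣ) : S.OQ Q) : F') = ((u : S.OQ Q) : F')⁻¹ := by
    have : ((u : S.OQ Q) : F') * (((u⁻¹ : (S.OQ Q)ˣ) : S.OQ Q) : F') = 1 := by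
      have h4 : ((u : S.OQ Q) * ((u⁻¹ : (S.OQ Q)ˣ) : S.OQ Q) : S.OQ Q) = 1 := u.mul_inv
      have h5 := congrArg (Subtype.val) h4
      exact h5
    exact eq_inv_of_mul_eq_one_right this
  rw [h3, wOrd_inv] at h2
  omega

/-- **Step C**: the limit valuation is a positive multiple of the order at `placeOf Q`. -/
theorem exists_mult (Q : S.PSeq) :
    ∃ c : ℤ, 0 < c ∧ ∀ h : F', h ≠ 0 → S.wOrd Q h = c * (S.placeOf Q).ord h := by
  obtain ⟨π, hπ⟩ := IsDiscreteValuationRing.exists_irreducible (S.placeOf Q).toValuationSubring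
  have hπ0 : (π : F') ≠ 0 := by
    simpa [ne_eq, ZeroMemClass.coe_eq_zero] using hπ.ne_zero
  refine ⟨S.wOrd Q (π : F'), ?_, ?_⟩
  · -- `π` is not a unit
    have h1 : 0 ≤ S.wOrd Q (π : F') := π.2
    rcases h1.lt_or_eq with h | h
    · exact h
    · exfalso
      apply hπ.not_isUnit
      have hinv : (π : F')⁻¹ ∈ S.OQ Q := by
        rw [mem_OQ, wOrd_inv, ← h, neg_zero]
      refine IsUnit.of_mul_eq_one (⟨_, hinv⟩ : S.OQ Q) ?_
      apply Subtype.ext
      show (π : F') * (π : F')⁻¹ = 1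
      exact mul_inv_cancel₀ hπ0
  · intro h hh
    obtain ⟨u, hu⟩ := (S.placeOf Q).exists_unit_mul_zpow hh hπ
    have hu0 : ((u : (S.placeOf Q).toValuationSubring) : F') ≠ 0 := by
      simp [ne_eq, ZeroMemClass.coe_eq_zero]
    conv_lhs => rw [hu]
    rw [S.wOrd_mul Q hu0 (zpow_ne_zero _ hπ0), wOrd_zpow]
    have := S.wOrd_unit Q u
    rw [this, zero_add]
    ring

/-- the multiplicity `c_Q` of a sequence of places. -/
def mult (Q : S.PSeq) : ℤ := (S.exists_mult Q).choose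

theorem mult_pos (Q : S.PSeq) : 0 < S.mult Q := (S.exists_mult Q).choose_spec.1

theorem wOrd_eq_mult_mul (Q : S.PSeq) {h : F'} (hh : h ≠ 0) :
    S.wOrd Q h = S.mult Q * (S.placeOf Q).ord h := (S.exists_mult Q).choose_spec.2 h hh

/-- the sign of `wOrd` is the sign of the order at `placeOf Q`. -/
theorem wOrd_pos_iff (Q : S.PSeq) {h : F'} (hh : h ≠ 0) :
    0 < S.wOrd Q h ↔ 0 < (S.placeOf Q).ord h := by
  rw [S.wOrd_eq_mult_mul Q hh]
  have := S.mult_pos Q
  constructor
  · intro h1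
    by_contra h2
    push Not at h2
    nlinarith
  · intro h1
    positivity

theorem wOrd_neg_iff (Q : S.PSeq) {h : F'} (hh : h ≠ 0) :
    S.wOrd Q h < 0 ↔ (S.placeOf Q).ord h < 0 := by
  rw [S.wOrd_eq_mult_mul Q hh]
  have := S.mult_pos Q
  constructor
  · intro h1
    by_contra h2
    push Not at h2
    nlinarith
  · intro h1
    nlinarith

end UFam

end Fermat.Agent.S27lib.U
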