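/-
S27lib / U / Places  (helper7, Project D, block T2).

Steps D, E of the ultrapower transfer: for an ultra-family `S` over a curve `F' / K*`
(`IsCurveOfGenus K* F' g`):

* `exists_pSeq_placeOf_eq` (onto): every place of `F'` is `placeOf Q` for a sequence `Q` of places
  of the components (Riemann: a non-constant function with a single pole; its components are
  a.e. non-constant, hence have poles);
* `compPlace` : a choice of such a sequence;
* `count_aux` (counting over the zeros of a generator `t` of `K*(x)`): all multiplicities are `1`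
  and every sequence of places is a.e. the chosen component sequence of its place;
* the resulting dictionary `ord_compPlace`, `compPlace_ne`, `eventually_eq_compPlace`.
-/
import Mathlib
import Fermat.Agent.S27lib.U.Val
import Fermat.Agent.S29lib.D.Unramified
import Fermat.Agent.ProgramR.FunctionField.Divisor

set_option autoImplicit false
set_option linter.unusedSectionVars false
set_option linter.style.haveILetI false

noncomputable section

namespace Fermat.Agent.S27lib.U

open AlgebraicCurve Filter IntermediateField Fermat.Agent.S18lib Fermat.Agent.ProgramR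

universe u v w

namespace UFam

variable {ι : Type w} {U : Ultrafilter ι} {K₀ : Type u} [Field K₀] [IsAlgClosed K₀] [CharZero K₀]
  {F' : Type v} [Field F'] [Algebra (Germ (U : Filter ι) K₀) F'] (S : UFam U K₀ F')
  {g : ℕ} (hF' : IsCurveOfGenus (Germ (U : Filter ι) K₀) F' g)

local notation "K*" => Germ (U : Filter ι) K₀

/-- the components are curves. -/
theorem isCurveOfGenus_comp (i : ι) :
    IsCurveOfGenus K₀ (S.Fc i) (RRgen.Canonical.genusOf K₀ (S.transc_xc i)) :=
  RRgen.Canonical.isCurveOfGenus_genusOf K₀ (S.transc_xc i)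

instance (i : ι) : Nonempty (Place K₀ (S.Fc i)) :=
  haveI := (S.isCurveOfGenus_comp i).infinite_places
  inferInstance

/-- if the components of `h` are a.e. constant then `h` is constant. -/
theorem exists_const_of_eventually_const {h : F'}
    (hh : ∀ᶠ i in (U : Filter ι), ∃ c : K₀, S.comp h i = algebraMap K₀ (S.Fc i) c) :
    ∃ c : K*, h = algebraMap K* F' c := by
  classical
  have : ∀ i, ∃ c : K₀, (∃ c : K₀, S.comp h i = algebraMap K₀ (S.Fc i) c) →
      S.comp h i = algebraMap K₀ (S.Fc i) c := by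
    intro i
    by_cases hi : ∃ c : K₀, S.comp h i = algebraMap K₀ (S.Fc i) c
    · obtain ⟨c, hc⟩ := hi
      exact ⟨c, fun _ => hc⟩
    · exact ⟨0, fun h' => absurd h' hi⟩
  choose c hc using this
  refine ⟨(c : K*), ?_⟩
  apply S.eq_of_comp
  filter_upwards [hh, S.comp_const c] with i hi hci
  rw [hci]
  exact hc i hi

include hF' in
/-- **Step D (onto)**: every place of `F'` comes from a sequence of places of the components. -/
theorem exists_pSeq_placeOf_eq (R : Place K* F') : ∃ Q : S.PSeq, S.placeOf Q = R := by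
  classical
  obtain ⟨h, hnc, hpole⟩ := S29lib.D.exists_nonconst_pole_only hF' R
  have hh0 : h ≠ 0 := by
    rintro rfl
    exact hnc 0 (by simp)
  -- a.e. the component of `h` is not constant
  have hnc' : ∀ᶠ i in (U : Filter ι), ¬ ∃ c : K₀, S.comp h i = algebraMap K₀ (S.Fc i) c := by
    apply eventually_not_of_not U
    intro hcon
    obtain ⟨c, hc⟩ := S.exists_const_of_eventually_const hcon
    exact hnc c hc
  -- choose poles
  have hpoleC : ∀ i, ∃ Q : Place K₀ (S.Fc i),
      (¬ ∃ c : K₀, S.comp h i = algebraMap K₀ (S.Fc i) c) → Q.ord (S.comp h i) < 0 := by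
    intro i
    by_cases hex : ∃ Q : Place K₀ (S.Fc i), Q.ord (S.comp h i) < 0
    · obtain ⟨Q, hQ⟩ := hex
      exact ⟨Q, fun _ => hQ⟩
    · push Not at hex
      obtain ⟨c, hc⟩ := S29lib.D.exists_const_of_forall_ord_nonneg (S.isCurveOfGenus_comp i) hex
      exact ⟨Classical.arbitrary _, fun hn => absurd ⟨c, hc⟩ hn⟩
  choose Q hQ using hpoleC
  refine ⟨Q, ?_⟩
  have hneg : S.wOrd Q h < 0 := by
    obtain ⟨i, h1, h2⟩ := (hnc'.and (S.wOrd_spec Q hh0)).exists
    have := hQ i h1
    omega
  have hR : (S.placeOf Q).ord h < 0 := (S.wOrd_neg_iff Q hh0).1 hneg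
  by_contra hne
  have := hpole (S.placeOf Q) hne
  omega

/-- a choice of a component sequence of a place of `F'`. -/
def compPlace (R : Place K* F') : S.PSeq := (S.exists_pSeq_placeOf_eq hF' R).choose

theorem placeOf_compPlace (R : Place K* F') : S.placeOf (S.compPlace hF' R) = R :=
  (S.exists_pSeq_placeOf_eq hF' R).choose_spec

/-- distinct places have a.e. distinct components. -/
theorem compPlace_ne {R R' : Place K* F'} (h : R ≠ R') :
    ∀ᶠ i in (U : Filter ι), S.compPlace hF' R i ≠ S.compPlace hF' R' i := by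
  apply eventually_not_of_not U
  intro hcon
  apply h
  rw [← S.placeOf_compPlace hF' R, ← S.placeOf_compPlace hF' R']
  exact S.placeOf_congr hcon

include hF' in
/-- **Step E (counting)** over the zeros of a generator `t` of `K*(x)`. -/
theorem count_aux {t : F'} {tc : ∀ i, S.Fc i}
    (htc : ∀ᶠ i in (U : Filter ι), S.comp t i = tc i)
    (ht : Transcendental K* t) (hadj : K*⟮t⟯ = K*⟮S.x⟯)
    (htci : ∀ i, Transcendental K₀ (tc i)) (hadji : ∀ i, K₀⟮tc i⟯ = K₀⟮S.xc i⟯) :
    (∀ R : Place K* F', 0 < R.ord t → S.mult (S.compPlace hF' R) = 1) ∧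
      (∀ Q' : S.PSeq, 0 < S.wOrd Q' t →
        ∀ᶠ i in (U : Filter ι), Q' i = S.compPlace hF' (S.placeOf Q') i) := by
  classical
  have ht0 : t ≠ 0 := fun h => ht (h ▸ isAlgebraic_zero)
  -- the zeros of `t`
  set Z : Finset (Place K* F') := (FF.finite_zeros_of_adjoin_eq S.x ht hadj).toFinset with hZdef
  have hZ : ∀ v, v ∈ Z ↔ 0 < v.ord t := fun v => by
    rw [hZdef, Set.Finite.mem_toFinset]; rfl
  have hsum : ∑ v ∈ Z, v.ord t = (Module.finrank K*⟮S.x⟯ F' : ℤ) := by
    rw [← FF.sum_zeros_of_adjoin_eq S.x ht hadj Z hZ]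
    refine Finset.sum_congr rfl fun v _ => ?_
    rw [hF'.deg_eq_one v, Nat.cast_one, mul_one]
  -- the zeros of the components
  let Zi : ∀ i, Finset (Place K₀ (S.Fc i)) := fun i =>
    (FF.finite_zeros_of_adjoin_eq (S.xc i) (htci i) (hadji i)).toFinset
  have hZi : ∀ i v, v ∈ Zi i ↔ 0 < v.ord (tc i) := fun i v => by
    simp only [Zi, Set.Finite.mem_toFinset]; rfl
  have hsumi : ∀ i, ∑ v ∈ Zi i, v.ord (tc i) = (Module.finrank K₀⟮S.xc i⟯ (S.Fc i) : ℤ) := by
    intro i
    rw [← FF.sum_zeros_of_adjoin_eq (S.xc i) (htci i) (hadji i) (Zi i) (hZi i)]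
    refine Finset.sum_congr rfl fun v _ => ?_
    rw [(S.isCurveOfGenus_comp i).deg_eq_one v, Nat.cast_one, mul_one]
  -- a.e. properties
  have p1 : ∀ᶠ i in (U : Filter ι), ∀ R ∈ Z,
      (S.compPlace hF' R i).ord (tc i) = S.mult (S.compPlace hF' R) * R.ord t := by
    rw [Finset.eventually_all]
    intro R _
    filter_upwards [S.wOrd_spec (S.compPlace hF' R) ht0, htc] with i hi hti
    rw [← hti, hi, S.wOrd_eq_mult_mul _ ht0, S.placeOf_compPlace hF' R]
  have p2 : ∀ᶠ i in (U : Filter ι), ∀ R ∈ Z, ∀ R' ∈ Z, R ≠ R' →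
      S.compPlace hF' R i ≠ S.compPlace hF' R' i := by
    rw [Finset.eventually_all]
    intro R _
    rw [Finset.eventually_all]
    intro R' _
    by_cases hRR : R = R'
    · exact Filter.Eventually.of_forall fun i h => absurd hRR h
    · exact (S.compPlace_ne hF' hRR).mono fun i hi _ => hi
  -- the key numerical statement at a good index
  have key : ∀ᶠ i in (U : Filter ι),
      (∀ R ∈ Z, S.mult (S.compPlace hF' R) = 1) ∧
        ∀ Q ∈ Zi i, ∃ R ∈ Z, Q = S.compPlace hF' R i := by
    filter_upwards [p1, p2, S.finrank_le] with i h1 h2 h3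
    have hinj : Set.InjOn (fun R => S.compPlace hF' R i) (Z : Set (Place K* F')) := by
      intro R hR R' hR' hRR'
      by_contra hne
      exact h2 R hR R' hR' hne hRR'
    have hsub : Z.image (fun R => S.compPlace hF' R i) ⊆ Zi i := by
      intro Q hQ
      obtain ⟨R, hR, rfl⟩ := Finset.mem_image.1 hQ
      rw [hZi, h1 R hR]
      exact mul_pos (S.mult_pos _) ((hZ R).1 hR)
    have hpos : ∀ Q ∈ Zi i, 0 < Q.ord (tc i) := fun Q hQ => (hZi i Q).1 hQ
    have himg : ∑ Q ∈ Z.image (fun R => S.compPlace hF' R i), Q.ord (tc i)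
        = ∑ R ∈ Z, S.mult (S.compPlace hF' R) * R.ord t := by
      rw [Finset.sum_image hinj]
      exact Finset.sum_congr rfl fun R hR => h1 R hR
    have hle : ∑ Q ∈ Z.image (fun R => S.compPlace hF' R i), Q.ord (tc i)
        ≤ ∑ Q ∈ Zi i, Q.ord (tc i) :=
      Finset.sum_le_sum_of_subset_of_nonneg hsub fun Q hQ _ => (hpos Q hQ).le
    have hterm : ∀ R ∈ Z, R.ord t ≤ S.mult (S.compPlace hF' R) * R.ord t := by
      intro R hR
      have h4 := S.mult_pos (S.compPlace hF' R)
      have h5 := (hZ R).1 hR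
      nlinarith
    have hge : ∑ R ∈ Z, R.ord t ≤ ∑ R ∈ Z, S.mult (S.compPlace hF' R) * R.ord t :=
      Finset.sum_le_sum hterm
    have hd : (Module.finrank K₀⟮S.xc i⟯ (S.Fc i) : ℤ) ≤ (Module.finrank K*⟮S.x⟯ F' : ℤ) := by
      exact_mod_cast h3
    -- all the inequalities are equalities
    have heq1 : ∑ R ∈ Z, S.mult (S.compPlace hF' R) * R.ord t = ∑ R ∈ Z, R.ord t := by
      apply le_antisymm _ hge
      rw [← himg, hsum]
      exact (hle.trans (hsumi i).le).trans hd
    have hmult : ∀ R ∈ Z, S.mult (S.compPlace hF' R) = 1 := by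
      intro R hR
      have := (Finset.sum_eq_sum_iff_of_le hterm).1 heq1.symm R hR
      have h5 := (hZ R).1 hR
      have h6 : (S.mult (S.compPlace hF' R) - 1) * R.ord t = 0 := by linarith
      rcases mul_eq_zero.1 h6 with h7 | h7
      · omega
      · omega
    refine ⟨hmult, ?_⟩
    intro Q hQ
    by_contra hcon
    have hQimg : Q ∉ Z.image (fun R => S.compPlace hF' R i) := by
      intro hmem
      obtain ⟨R, hR, hRQ⟩ := Finset.mem_image.1 hmem
      exact hcon ⟨R, hR, hRQ.symm⟩
    have hlt := Finset.sum_lt_sum_of_subset hsub hQ hQimg (hpos Q hQ)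
      (fun Q' hQ' _ => (hpos Q' hQ').le)
    rw [himg, heq1, hsum, hsumi i] at hlt
    omega
  refine ⟨fun R hR => ?_, fun Q' hQ' => ?_⟩
  · obtain ⟨i, hi⟩ := key.exists
    exact hi.1 R ((hZ R).2 hR)
  · -- pigeonhole over `Z`
    have h1 : ∀ᶠ i in (U : Filter ι), ∃ R ∈ (Z : Set (Place K* F')),
        Q' i = S.compPlace hF' R i := by
      filter_upwards [key, S.wOrd_spec Q' ht0, htc] with i hk hw hti
      have hmem : Q' i ∈ Zi i := by
        rw [hZi, ← hti, hw]
        exact hQ'
      obtain ⟨R, hR, hRQ⟩ := hk.2 (Q' i) hmem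
      exact ⟨R, hR, hRQ⟩
    obtain ⟨R, -, hR⟩ := (Ultrafilter.eventually_exists_mem_iff (Finset.finite_toSet Z)).1 h1
    have hplace : S.placeOf Q' = R := by
      rw [S.placeOf_congr hR, S.placeOf_compPlace hF' R]
    rw [hplace]
    exact hR

end UFam

end Fermat.Agent.S27lib.U
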