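/-
S27lib / U / Dict  (helper7, Project D, block T2).

The dictionary between the places / divisors of `F'` and of the components of an ultra-family:

* `mult_compPlace`, `ord_compPlace` : `ord_{compPlace R i} (comp h i) = ord_R h` a.e.;
* `eventually_eq_compPlace` : every sequence of places is a.e. the component sequence of its place;
* `compDiv i D` : the `i`-th component of a divisor; degree, additivity, evaluation;
* `compDiv_divOf` : `div (comp h i) = compDiv i (div h)` a.e.;
* `comp_mem_rr` : `h ∈ L(D)` implies `comp h i ∈ L(compDiv i D)` a.e.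
-/
import Mathlib
import Fermat.Agent.S27lib.U.Places
import Fermat.Agent.S18lib.Setup.DivLemmas

set_option autoImplicit false
set_option linter.unusedSectionVars false
set_option linter.style.haveILetI false

noncomputable section

namespace Fermat.Agent.S27lib.U

open AlgebraicCurve Filter IntermediateField Fermat.Agent.S18lib Fermat.Agent.ProgramR

universe u v w

/-- push-forward of an effective finitely supported function is effective. -/
theorem mapDomain_nonneg {α β : Type*} (f : α → β) {D : α →₀ ℤ} (hD : 0 ≤ D) :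
    0 ≤ Finsupp.mapDomain f D := by
  classical
  rw [Finsupp.mapDomain, Finsupp.sum]
  apply Finset.sum_nonneg
  intro a _
  rw [Finsupp.le_def]
  intro b
  rw [Finsupp.zero_apply, Finsupp.single_apply]
  split_ifs
  · exact Finsupp.le_def.1 hD a
  · exact le_refl _

namespace UFam

variable {ι : Type w} {U : Ultrafilter ι} {K₀ : Type u} [Field K₀] [IsAlgClosed K₀] [CharZero K₀]
  {F' : Type v} [Field F'] [Algebra (Germ (U : Filter ι) K₀) F'] (S : UFam U K₀ F')
  {g : ℕ} (hF' : IsCurveOfGenus (Germ (U : Filter ι) K₀) F' g)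

local notation "K*" => Germ (U : Filter ι) K₀

include hF' in
/-- every place of `F'` is a zero of a generator `t` of `K*(x)` which has components. -/
theorem exists_local_generator (R : Place K* F') :
    ∃ (t : F') (tc : ∀ i, S.Fc i), (∀ᶠ i in (U : Filter ι), S.comp t i = tc i) ∧
      Transcendental K* t ∧ K*⟮t⟯ = K*⟮S.x⟯ ∧ (∀ i, Transcendental K₀ (tc i)) ∧
      (∀ i, K₀⟮tc i⟯ = K₀⟮S.xc i⟯) ∧ 0 < R.ord t := by
  rcases lt_or_ge (R.ord S.x) 0 with hneg | hnn
  · refine ⟨S.x⁻¹, fun i => (S.xc i)⁻¹, ?_, FF.transcendental_inv S.transc_x,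
      FF.adjoin_inv_eq S.x, fun i => FF.transcendental_inv (S.transc_xc i),
      fun i => FF.adjoin_inv_eq (S.xc i), ?_⟩
    · filter_upwards [S.comp_inv S.x, S.comp_x] with i h1 h2
      rw [h1, h2]
    · rw [R.ord_inv]; omega
  · have hmem : S.x ∈ R.toValuationSubring := (FF.mem_iff_ord_nonneg R _).2 hnn
    obtain ⟨a, ha⟩ := Cech.exists_value_of_deg_eq_one R (hF'.deg_eq_one R) hmem
    have ha' : 1 ≤ R.ord (S.x - algebraMap K* F' a) := by
      rcases ha with h0 | h1
      · exfalso
        apply S.transc_x
        rw [h0]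
        exact isAlgebraic_algebraMap a
      · exact h1
    induction a using Germ.inductionOn with
    | _ a =>
      refine ⟨S.x - algebraMap K* F' (a : K*), fun i => S.xc i - algebraMap K₀ (S.Fc i) (a i), ?_,
        FF.transcendental_sub_algebraMap S.transc_x _, FF.adjoin_sub_algebraMap_eq S.x _,
        fun i => FF.transcendental_sub_algebraMap (S.transc_xc i) _,
        fun i => FF.adjoin_sub_algebraMap_eq (S.xc i) _, by omega⟩
      filter_upwards [S.comp_sub S.x (algebraMap K* F' (a : K*)), S.comp_x, S.comp_const a]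
        with i h1 h2 h3
      rw [h1, h2, h3]

/-- all multiplicities are one. -/
theorem mult_compPlace (R : Place K* F') : S.mult (S.compPlace hF' R) = 1 := by
  obtain ⟨t, tc, h1, h2, h3, h4, h5, h6⟩ := S.exists_local_generator hF' R
  exact (S.count_aux hF' h1 h2 h3 h4 h5).1 R h6

/-- **the orders of the components**: `ord_{R_i} (h_i) = ord_R h` a.e. -/
theorem ord_compPlace (R : Place K* F') {h : F'} (hh : h ≠ 0) :
    ∀ᶠ i in (U : Filter ι), (S.compPlace hF' R i).ord (S.comp h i) = R.ord h := by
  filter_upwards [S.wOrd_spec (S.compPlace hF' R) hh] with i hi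
  rw [hi, S.wOrd_eq_mult_mul _ hh, S.mult_compPlace hF' R, one_mul, S.placeOf_compPlace hF' R]

/-- every sequence of places is a.e. the component sequence of its place. -/
theorem eventually_eq_compPlace (Q' : S.PSeq) :
    ∀ᶠ i in (U : Filter ι), Q' i = S.compPlace hF' (S.placeOf Q') i := by
  obtain ⟨t, tc, h1, h2, h3, h4, h5, h6⟩ := S.exists_local_generator hF' (S.placeOf Q')
  have ht0 : t ≠ 0 := fun h => h2 (h ▸ isAlgebraic_zero)
  exact (S.count_aux hF' h1 h2 h3 h4 h5).2 Q' ((S.wOrd_pos_iff Q' ht0).2 h6)

/-- a.e. injectivity of the component map on a finite set of places. -/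
theorem eventually_injOn (T : Finset (Place K* F')) : ∀ᶠ i in (U : Filter ι),
    Set.InjOn (fun R => S.compPlace hF' R i) (T : Set (Place K* F')) := by
  have h : ∀ᶠ i in (U : Filter ι), ∀ R ∈ T, ∀ R' ∈ T, R ≠ R' →
      S.compPlace hF' R i ≠ S.compPlace hF' R' i := by
    rw [Finset.eventually_all]
    intro R _
    rw [Finset.eventually_all]
    intro R' _
    by_cases hRR : R = R'
    · exact Filter.Eventually.of_forall fun i h => absurd hRR h
    · exact (S.compPlace_ne hF' hRR).mono fun i hi _ => hi
  filter_upwards [h] with i hi R hR R' hR' hRR'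
  by_contra hne
  exact hi R hR R' hR' hne hRR'

/-! ### components of divisors -/

/-- the `i`-th component of a divisor. -/
def compDiv (i : ι) (D : Divisor K* F') : Divisor K₀ (S.Fc i) :=
  Finsupp.mapDomain (fun R => S.compPlace hF' R i) D

theorem compDiv_add (i : ι) (D E : Divisor K* F') :
    S.compDiv hF' i (D + E) = S.compDiv hF' i D + S.compDiv hF' i E :=
  Finsupp.mapDomain_add

theorem compDiv_zero (i : ι) : S.compDiv hF' i 0 = 0 := Finsupp.mapDomain_zero

theorem compDiv_neg (i : ι) (D : Divisor K* F') :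
    S.compDiv hF' i (-D) = -S.compDiv hF' i D := by
  have h := S.compDiv_add hF' i D (-D)
  rw [add_neg_cancel, compDiv_zero] at h
  exact (neg_eq_of_add_eq_zero_right h.symm).symm

theorem compDiv_sub (i : ι) (D E : Divisor K* F') :
    S.compDiv hF' i (D - E) = S.compDiv hF' i D - S.compDiv hF' i E := by
  rw [sub_eq_add_neg, compDiv_add, compDiv_neg, sub_eq_add_neg]

theorem compDiv_nsmul (i : ι) (n : ℕ) (D : Divisor K* F') :
    S.compDiv hF' i (n • D) = n • S.compDiv hF' i D := by
  induction n with
  | zero => simp [compDiv_zero]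
  | succ n ih => rw [succ_nsmul, compDiv_add, ih, succ_nsmul]

theorem compDiv_single (i : ι) (R : Place K* F') (n : ℤ) :
    S.compDiv hF' i (Finsupp.single R n) = Finsupp.single (S.compPlace hF' R i) n :=
  Finsupp.mapDomain_single

theorem compDiv_nonneg (i : ι) {D : Divisor K* F'} (hD : 0 ≤ D) : 0 ≤ S.compDiv hF' i D :=
  mapDomain_nonneg _ hD

/-- the components have the same degree. -/
theorem degree_compDiv (i : ι) (D : Divisor K* F') :
    Divisor.degree (S.compDiv hF' i D) = Divisor.degree D := by
  induction D using Finsupp.induction with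
  | zero => rw [compDiv_zero, map_zero, map_zero]
  | single_add R n D _ _ ih =>
    rw [compDiv_add, map_add, map_add, ih, compDiv_single, Divisor.degree_single,
      Divisor.degree_single, hF'.deg_eq_one R, (S.isCurveOfGenus_comp i).deg_eq_one]

/-- evaluation of a component divisor at a component place. -/
theorem compDiv_apply_compPlace (D : Divisor K* F') (R : Place K* F') :
    ∀ᶠ i in (U : Filter ι), S.compDiv hF' i D (S.compPlace hF' R i) = D R := by
  classical
  filter_upwards [S.eventually_injOn hF' (insert R D.support)] with i hi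
  exact Finsupp.mapDomain_apply' (↑(insert R D.support) : Set (Place K* F')) D
    (by
      intro v hv
      exact Finset.mem_coe.2 (Finset.mem_insert_of_mem hv)) hi
    (Finset.mem_coe.2 (Finset.mem_insert_self R D.support))

/-- **compatibility of principal divisors**: `div (comp h i) = compDiv i (div h)` a.e. -/
theorem compDiv_divisor {h : F'} (hh : h ≠ 0) {D : Divisor K* F'}
    (hD : ∀ R : Place K* F', D R = R.ord h) : ∀ᶠ i in (U : Filter ι),
    ∀ Q : Place K₀ (S.Fc i), S.compDiv hF' i D Q = Q.ord (S.comp h i) := by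
  classical
  by_contra hcon
  have hcon' := eventually_not_of_not U hcon
  have : ∀ i, ∃ Q : Place K₀ (S.Fc i),
      (¬ ∀ Q : Place K₀ (S.Fc i), S.compDiv hF' i D Q = Q.ord (S.comp h i)) →
        S.compDiv hF' i D Q ≠ Q.ord (S.comp h i) := by
    intro i
    by_cases hi : ∀ Q : Place K₀ (S.Fc i), S.compDiv hF' i D Q = Q.ord (S.comp h i)
    · exact ⟨Classical.arbitrary _, fun h' => absurd hi h'⟩
    · push Not at hi
      obtain ⟨Q, hQ⟩ := hi
      exact ⟨Q, fun _ => hQ⟩
  choose Q' hQ' using this
  obtain ⟨i, h1, h2, h3, h4⟩ := (hcon'.and ((S.eventually_eq_compPlace hF' Q').and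
    ((S.compDiv_apply_compPlace hF' D (S.placeOf Q')).and
      (S.ord_compPlace hF' (S.placeOf Q') hh)))).exists
  apply hQ' i h1
  rw [h2, h3, h4, hD]

/-- `h ∈ L(D)` implies `comp h i ∈ L(compDiv i D)` a.e. -/
theorem comp_mem_rr {D : Divisor K* F'} {h : F'} (hh : h ∈ riemannRochSpace D) :
    ∀ᶠ i in (U : Filter ι), S.comp h i ∈ riemannRochSpace (S.compDiv hF' i D) := by
  rcases eq_or_ne h 0 with rfl | hh0
  · exact S.comp_zero.mono fun i hi => by rw [hi]; exact Submodule.zero_mem _
  obtain ⟨Dh, hDh, -⟩ := hF'.hasPrincipalDivisors.exists_divisor h hh0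
  have hnn : 0 ≤ Dh + D := by
    rw [Finsupp.le_def]
    intro R
    have := (Cech.mem_rr_of_ne hh0).1 hh R
    rw [Finsupp.zero_apply, Finsupp.add_apply, hDh R]
    omega
  filter_upwards [S.compDiv_divisor hF' hh0 hDh, S.comp_ne_zero hh0] with i hi hne
  rw [Cech.mem_rr_of_ne hne]
  intro Q
  have h1 := Finsupp.le_def.1 (S.compDiv_nonneg hF' i hnn) Q
  rw [Finsupp.zero_apply, compDiv_add, Finsupp.add_apply, hi Q] at h1
  omega

end UFam

end Fermat.Agent.S27lib.U
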