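/-
S27lib / U / Genus  (helper7, Project D, block T2).

* `exists_place_of_eventually` : a property which a.e. holds for SOME place of the component holds
  a.e. for the component of a fixed place of `F'`;
* `fibre_finset` : the zeros of `comp t i` are a.e. exactly the components of the zeros of `t`,
  with the same orders;
* `finrank_comp_eq` : a.e. `[Fc i : K₀(xc i)] = [F' : K*(x)]`;
* `genus_comp_eq` : a.e. the genus of the component is the genus of `F'`
  (Riemann–Hurwitz in fibre-count form on both sides).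
-/
import Mathlib
import Fermat.Agent.S27lib.U.Dict
import Fermat.Agent.S27lib.U.Branch
import Fermat.Agent.S27lib.U.AlgClosed

set_option autoImplicit false
set_option linter.unusedSectionVars false
set_option linter.style.haveILetI false

noncomputable section

namespace Fermat.Agent.S27lib.U

open AlgebraicCurve Filter IntermediateField Fermat.Agent.S18lib Fermat.Agent.ProgramR

universe u v w

namespace UFam

variable {ι : Type w} {U : Ultrafilter ι} {K₀ : Type u} [Field K₀] [IsAlgClosed K₀] [CharZero K₀]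
  {F' : Type v} [Field F'] [Algebra (Germ (U : Filter ι) K₀) F'] (S : UFam U K₀ F')
  {g : ℕ} (hF' : IsCurveOfGenus (Germ (U : Filter ι) K₀) F' g)

local notation "K*" => Germ (U : Filter ι) K₀

/-- **principle (P)**: if a.e. some place of the component has a property, then a.e. the component
of a fixed place of `F'` has it. -/
theorem exists_place_of_eventually {φ : ∀ i, Place K₀ (S.Fc i) → Prop}
    (h : ∀ᶠ i in (U : Filter ι), ∃ Q, φ i Q) :
    ∃ R : Place K* F', ∀ᶠ i in (U : Filter ι), φ i (S.compPlace hF' R i) := by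
  classical
  let Q' : S.PSeq := fun i => if hi : ∃ Q, φ i Q then hi.choose else Classical.arbitrary _
  refine ⟨S.placeOf Q', ?_⟩
  filter_upwards [h, S.eventually_eq_compPlace hF' Q'] with i hi he
  rw [← he]
  simp only [Q', dif_pos hi]
  exact hi.choose_spec

open Classical in
/-- the zeros of the components of `t` are a.e. the components of the zeros of `t`. -/
theorem fibre_finset {t : F'} {tc : ∀ i, S.Fc i}
    (htc : ∀ᶠ i in (U : Filter ι), S.comp t i = tc i) (ht0 : t ≠ 0)
    (Z : Finset (Place K* F')) (hZ : ∀ v, v ∈ Z ↔ 0 < v.ord t) :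
    ∀ᶠ i in (U : Filter ι),
      Set.InjOn (fun R => S.compPlace hF' R i) (Z : Set (Place K* F')) ∧
      (∀ R ∈ Z, (S.compPlace hF' R i).ord (tc i) = R.ord t) ∧
      ∀ Q : Place K₀ (S.Fc i),
        0 < Q.ord (tc i) ↔ Q ∈ Z.image (fun R => S.compPlace hF' R i) := by
  classical
  have h1 := S.eventually_injOn hF' Z
  have h2 : ∀ᶠ i in (U : Filter ι), ∀ R ∈ Z, (S.compPlace hF' R i).ord (tc i) = R.ord t := by
    rw [Finset.eventually_all]
    intro R _
    filter_upwards [S.ord_compPlace hF' R ht0, htc] with i hi hti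
    rw [← hti, hi]
  have h3 : ∀ᶠ i in (U : Filter ι), ∀ Q : Place K₀ (S.Fc i), 0 < Q.ord (tc i) →
      Q ∈ Z.image (fun R => S.compPlace hF' R i) := by
    by_contra hcon
    have hcon' : ∀ᶠ i in (U : Filter ι), ∃ Q : Place K₀ (S.Fc i), 0 < Q.ord (tc i) ∧
        Q ∉ Z.image (fun R => S.compPlace hF' R i) := by
      filter_upwards [eventually_not_of_not U hcon] with i hi
      push Not at hi
      exact hi
    obtain ⟨R, hR⟩ := S.exists_place_of_eventually hF' hcon'
    obtain ⟨i, hi1, hi2, hi3⟩ := (hR.and ((S.ord_compPlace hF' R ht0).and htc)).exists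
    have hpos : 0 < R.ord t := by
      rw [← hi2, hi3]
      exact hi1.1
    exact hi1.2 (Finset.mem_image.2 ⟨R, (hZ R).2 hpos, rfl⟩)
  filter_upwards [h1, h2, h3] with i hi1 hi2 hi3
  refine ⟨hi1, hi2, fun Q => ⟨hi3 Q, fun hQ => ?_⟩⟩
  obtain ⟨R, hR, rfl⟩ := Finset.mem_image.1 hQ
  rw [hi2 R hR]
  exact (hZ R).1 hR

include hF' in
/-- a.e. the degrees of the components are the degree of `F'`. -/
theorem finrank_comp_eq : ∀ᶠ i in (U : Filter ι),
    Module.finrank K₀⟮S.xc i⟯ (S.Fc i) = Module.finrank K*⟮S.x⟯ F' := by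
  classical
  have hx0 : S.x ≠ 0 := fun h => S.transc_x (h ▸ isAlgebraic_zero)
  have ht := FF.transcendental_inv S.transc_x
  have hadj := FF.adjoin_inv_eq (K := K*) S.x
  set Z : Finset (Place K* F') := (FF.finite_zeros_of_adjoin_eq S.x ht hadj).toFinset with hZdef
  have hZ : ∀ v, v ∈ Z ↔ 0 < v.ord S.x⁻¹ := fun v => by
    rw [hZdef, Set.Finite.mem_toFinset]; rfl
  have hsum := FF.sum_zeros_of_adjoin_eq S.x ht hadj Z hZ
  have htc : ∀ᶠ i in (U : Filter ι), S.comp S.x⁻¹ i = (S.xc i)⁻¹ := by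
    filter_upwards [S.comp_inv S.x, S.comp_x] with i h1 h2
    rw [h1, h2]
  filter_upwards [S.fibre_finset hF' htc (inv_ne_zero hx0) Z hZ] with i hi
  obtain ⟨hinj, hord, hmem⟩ := hi
  have hsumi := FF.sum_zeros_of_adjoin_eq (S.xc i) (FF.transcendental_inv (S.transc_xc i))
    (FF.adjoin_inv_eq (K := K₀) (S.xc i)) (Z.image fun R => S.compPlace hF' R i)
    (fun v => (hmem v).symm)
  rw [Finset.sum_image hinj] at hsumi
  have : ∑ R ∈ Z, (S.compPlace hF' R i).ord (S.xc i)⁻¹ * (((S.compPlace hF' R i).deg : ℕ) : ℤ)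
      = ∑ R ∈ Z, R.ord S.x⁻¹ * ((R.deg : ℕ) : ℤ) :=
    Finset.sum_congr rfl fun R hR => by
      rw [hord R hR, hF'.deg_eq_one R, (S.isCurveOfGenus_comp i).deg_eq_one]
  rw [this, hsum] at hsumi
  exact_mod_cast hsumi.symm

include hF' in
/-- a.e. the number of zeros of the components of `t` is the number of zeros of `t`. -/
theorem card_image_fibre {t : F'} {tc : ∀ i, S.Fc i}
    (htc : ∀ᶠ i in (U : Filter ι), S.comp t i = tc i) (ht0 : t ≠ 0)
    (Z : Finset (Place K* F')) (hZ : ∀ v, v ∈ Z ↔ 0 < v.ord t) :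
    ∀ᶠ i in (U : Filter ι), ∃ Zi : Finset (Place K₀ (S.Fc i)),
      (∀ Q, Q ∈ Zi ↔ 0 < Q.ord (tc i)) ∧ Zi.card = Z.card := by
  classical
  filter_upwards [S.fibre_finset hF' htc ht0 Z hZ] with i hi
  exact ⟨Z.image fun R => S.compPlace hF' R i, fun Q => (hi.2.2 Q).symm,
    Finset.card_image_of_injOn hi.1⟩

/-- representatives of distinct germs are a.e. distinct, on a finite set. -/
theorem eventually_injOn_out (B : Finset K*) : ∀ᶠ i in (U : Filter ι),
    Set.InjOn (fun a : K* => (Quotient.out a : ι → K₀) i) (B : Set K*) := by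
  have h : ∀ᶠ i in (U : Filter ι), ∀ a ∈ B, ∀ b ∈ B, a ≠ b →
      (Quotient.out a : ι → K₀) i ≠ (Quotient.out b : ι → K₀) i := by
    rw [Finset.eventually_all]
    intro a _
    rw [Finset.eventually_all]
    intro b _
    by_cases hab : a = b
    · exact Filter.Eventually.of_forall fun i h => absurd hab h
    · have : ¬ ∀ᶠ i in (U : Filter ι), (Quotient.out a : ι → K₀) i = (Quotient.out b : ι → K₀) i := by
        intro heq
        apply hab
        rw [← Quotient.out_eq a, ← Quotient.out_eq b]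
        exact Quotient.sound heq
      exact (eventually_not_of_not U this).mono fun i hi _ => hi
  filter_upwards [h] with i hi a ha b hb hab
  by_contra hne
  exact hi a ha b hb hne hab

/-- components of `x - a` for a germ `a` and its chosen representative. -/
theorem comp_x_sub_out (a : K*) : ∀ᶠ i in (U : Filter ι),
    S.comp (S.x - algebraMap K* F' a) i
      = S.xc i - algebraMap K₀ (S.Fc i) ((Quotient.out a : ι → K₀) i) := by
  have ha : (((Quotient.out a : ι → K₀)) : K*) = a := Quotient.out_eq a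
  filter_upwards [S.comp_sub S.x (algebraMap K* F' a), S.comp_x,
    S.comp_const (Quotient.out a : ι → K₀)] with i h1 h2 h3
  rw [ha] at h3
  rw [h1, h2, h3]

include hF' in
/-- **genus equality**: a.e. the genus of the component is `g`. -/
theorem genus_comp_eq : ∀ᶠ i in (U : Filter ι),
    RRgen.Canonical.genusOf K₀ (S.transc_xc i) = g := by
  classical
  have hgF : RRgen.Canonical.genusOf K* S.transc_x = g :=
    RRgen.Canonical.genusOf_eq_of_isCurveOfGenus K* S.transc_x hF'
  have hx0 : S.x ≠ 0 := fun h => S.transc_x (h ▸ isAlgebraic_zero)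
  have hxa0 : ∀ a : K*, S.x - algebraMap K* F' a ≠ 0 := fun a h =>
    S.transc_x (by rw [sub_eq_zero.1 h]; exact isAlgebraic_algebraMap a)
  -- the branch values of `F'`
  set B : Finset K* := (finite_branchValues K* S.transc_x).toFinset with hBdef
  have hB : ∀ a : K*, a ∉ B → ∀ P : Place K* F', 0 < P.ord (S.x - algebraMap K* F' a) →
      P.ord (S.x - algebraMap K* F' a) = 1 := by
    intro a ha P hP
    rw [hBdef, Set.Finite.mem_toFinset, Set.mem_ofPred_eq] at ha
    push Not at ha
    have := ha P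
    omega
  have rhF := RRgen.Canonical.rh_eq_genusOf K* S.transc_x B hB
  rw [hgF] at rhF
  -- fibres over the branch values
  let Za : K* → Finset (Place K* F') := fun a => (FF.finite_fibre S.x S.transc_x a).toFinset
  have hZa : ∀ a v, v ∈ Za a ↔ 0 < v.ord (S.x - algebraMap K* F' a) := fun a v => by
    simp only [Za, Set.Finite.mem_toFinset]; rfl
  have e1 : ∀ᶠ i in (U : Filter ι), ∀ a ∈ B, ∃ Zi : Finset (Place K₀ (S.Fc i)),
      (∀ Q, Q ∈ Zi ↔ 0 < Q.ord (S.xc i - algebraMap K₀ (S.Fc i) ((Quotient.out a : ι → K₀) i))) ∧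
        Zi.card = (Za a).card := by
    rw [Finset.eventually_all]
    intro a _
    exact S.card_image_fibre hF' (S.comp_x_sub_out a) (hxa0 a) (Za a) (hZa a)
  -- poles
  have htinv := FF.transcendental_inv S.transc_x
  have hadjinv := FF.adjoin_inv_eq (K := K*) S.x
  set Zp : Finset (Place K* F') :=
    (FF.finite_zeros_of_adjoin_eq S.x htinv hadjinv).toFinset with hZpdef
  have hZp : ∀ v, v ∈ Zp ↔ 0 < v.ord S.x⁻¹ := fun v => by
    rw [hZpdef, Set.Finite.mem_toFinset]; rfl
  have htcinv : ∀ᶠ i in (U : Filter ι), S.comp S.x⁻¹ i = (S.xc i)⁻¹ := by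
    filter_upwards [S.comp_inv S.x, S.comp_x] with i h1 h2
    rw [h1, h2]
  have e2 := S.card_image_fibre hF' htcinv (inv_ne_zero hx0) Zp hZp
  -- the branch values of the components
  have e5 : ∀ᶠ i in (U : Filter ι), ∀ b : K₀,
      b ∉ B.image (fun a : K* => (Quotient.out a : ι → K₀) i) →
      ∀ P : Place K₀ (S.Fc i), 0 < P.ord (S.xc i - algebraMap K₀ (S.Fc i) b) →
        P.ord (S.xc i - algebraMap K₀ (S.Fc i) b) = 1 := by
    by_contra hcon
    have hcon' : ∀ᶠ i in (U : Filter ι), ∃ b : K₀,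
        b ∉ B.image (fun a : K* => (Quotient.out a : ι → K₀) i) ∧
        ∃ P : Place K₀ (S.Fc i), 0 < P.ord (S.xc i - algebraMap K₀ (S.Fc i) b) ∧
          P.ord (S.xc i - algebraMap K₀ (S.Fc i) b) ≠ 1 := by
      filter_upwards [eventually_not_of_not U hcon] with i hi
      push Not at hi
      exact hi
    -- choose the bad values
    have hch : ∀ i, ∃ b : K₀, (∃ b : K₀,
        b ∉ B.image (fun a : K* => (Quotient.out a : ι → K₀) i) ∧
        ∃ P : Place K₀ (S.Fc i), 0 < P.ord (S.xc i - algebraMap K₀ (S.Fc i) b) ∧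
          P.ord (S.xc i - algebraMap K₀ (S.Fc i) b) ≠ 1) →
        (b ∉ B.image (fun a : K* => (Quotient.out a : ι → K₀) i) ∧
        ∃ P : Place K₀ (S.Fc i), 0 < P.ord (S.xc i - algebraMap K₀ (S.Fc i) b) ∧
          P.ord (S.xc i - algebraMap K₀ (S.Fc i) b) ≠ 1) := by
      intro i
      by_cases hi : ∃ b : K₀,
        b ∉ B.image (fun a : K* => (Quotient.out a : ι → K₀) i) ∧
        ∃ P : Place K₀ (S.Fc i), 0 < P.ord (S.xc i - algebraMap K₀ (S.Fc i) b) ∧
          P.ord (S.xc i - algebraMap K₀ (S.Fc i) b) ≠ 1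
      · obtain ⟨b, hb⟩ := hi
        exact ⟨b, fun _ => hb⟩
      · exact ⟨0, fun h => absurd h hi⟩
    choose bf hbf using hch
    have hbad : ∀ᶠ i in (U : Filter ι), ∃ P : Place K₀ (S.Fc i),
        0 < P.ord (S.xc i - algebraMap K₀ (S.Fc i) (bf i)) ∧
          P.ord (S.xc i - algebraMap K₀ (S.Fc i) (bf i)) ≠ 1 :=
      hcon'.mono fun i hi => (hbf i hi).2
    obtain ⟨R, hR⟩ := S.exists_place_of_eventually hF' hbad
    set b : K* := (bf : K*) with hb
    have htb : ∀ᶠ i in (U : Filter ι), S.comp (S.x - algebraMap K* F' b) i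
        = S.xc i - algebraMap K₀ (S.Fc i) (bf i) := by
      filter_upwards [S.comp_sub S.x (algebraMap K* F' b), S.comp_x, S.comp_const bf]
        with i h1 h2 h3
      rw [h1, h2, h3]
    -- `R` is a ramified place over `b`
    have hRord : 1 < R.ord (S.x - algebraMap K* F' b) := by
      obtain ⟨i, hi1, hi2, hi3⟩ := (hR.and ((S.ord_compPlace hF' R (hxa0 b)).and htb)).exists
      rw [hi3] at hi2
      rw [← hi2]
      have := hi1.1
      have := hi1.2
      omega
    have hbB : b ∈ B := by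
      rw [hBdef, Set.Finite.mem_toFinset]
      exact ⟨R, hRord⟩
    -- so `bf i` is a.e. the representative of `b`
    have hrep : ∀ᶠ i in (U : Filter ι), bf i = (Quotient.out b : ι → K₀) i := by
      have : ((Quotient.out b : ι → K₀) : K*) = (bf : K*) := Quotient.out_eq b
      exact (Germ.coe_eq.1 this).symm
    obtain ⟨i, hi1, hi2⟩ := (hcon'.and hrep).exists
    apply (hbf i hi1).1
    rw [hi2]
    exact Finset.mem_image.2 ⟨b, hbB, rfl⟩
  -- assemble
  filter_upwards [e1, e2, e5, S.finrank_comp_eq hF', eventually_injOn_out (U := U) (K₀ := K₀) B]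
    with i h1 h2 h5 hn hinj
  have rhi := RRgen.Canonical.rh_eq_genusOf K₀ (S.transc_xc i)
    (B.image fun a : K* => (Quotient.out a : ι → K₀) i) h5
  rw [Finset.sum_image hinj, hn] at rhi
  -- poles
  obtain ⟨Zpi, hZpi, hcardp⟩ := h2
  have hp1 : Nat.card (Tame.polesOf (K := K₀) (S.xc i)) = Zp.card := by
    rw [card_polesOf_eq_card K₀ Zpi (fun v => by rw [hZpi v, v.ord_inv]; omega), hcardp]
  have hp2 : Nat.card (Tame.polesOf (K := K*) S.x) = Zp.card :=
    card_polesOf_eq_card K* Zp (fun v => by rw [hZp v, v.ord_inv]; omega)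
  -- fibres
  have hf : ∀ a ∈ B,
      Nat.card (Tame.zerosOf (K := K₀)
        (S.xc i - algebraMap K₀ (S.Fc i) ((Quotient.out a : ι → K₀) i)))
      = Nat.card (Tame.zerosOf (K := K*) (S.x - algebraMap K* F' a)) := by
    intro a ha
    obtain ⟨Zi, hZi, hcard⟩ := h1 a ha
    rw [card_zerosOf_eq_card K₀ (S.transc_xc i) _ Zi hZi, hcard,
      card_zerosOf_eq_card K* S.transc_x a (Za a) (hZa a)]
  have hsum : ∑ a ∈ B, ((Module.finrank K*⟮S.x⟯ F' : ℤ) - Nat.card (Tame.zerosOf (K := K₀)
        (S.xc i - algebraMap K₀ (S.Fc i) ((Quotient.out a : ι → K₀) i))))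
      = ∑ a ∈ B, ((Module.finrank K*⟮S.x⟯ F' : ℤ) - Nat.card (Tame.zerosOf (K := K*)
        (S.x - algebraMap K* F' a))) :=
    Finset.sum_congr rfl fun a ha => by rw [hf a ha]
  rw [hsum, hp1] at rhi
  rw [hp2] at rhF
  omega

include hF' in
/-- a.e. the component is a curve of genus `g`. -/
theorem isCurveOfGenus_comp_eq : ∀ᶠ i in (U : Filter ι), IsCurveOfGenus K₀ (S.Fc i) g := by
  filter_upwards [S.genus_comp_eq hF'] with i hi
  have := S.isCurveOfGenus_comp i
  rwa [hi] at this

end UFam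

end Fermat.Agent.S27lib.U
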