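/-
S27lib / U / Glue  (helper7, Project D, block T2).

Gluing of Riemann–Roch spaces along an ultra-family:

* `eventually_linearIndependent` : components of a `K*`-independent family are a.e. `K₀`-independent;
* `exists_glue_of_large` : if `deg D > 2g - 2`, every a.e. sequence `u i ∈ L(compDiv i D)` is the
  component sequence of some `h ∈ L(D)` (Riemann's theorem on both sides);
* `exists_glue` : the same for every divisor `D`.
-/
import Mathlib
import Fermat.Agent.S27lib.U.Genus

set_option autoImplicit false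
set_option linter.unusedSectionVars false
set_option linter.style.haveILetI false

noncomputable section

namespace Fermat.Agent.S27lib.U

open AlgebraicCurve Filter IntermediateField Fermat.Agent.S18lib Fermat.Agent.ProgramR

universe u v w

namespace UFam

variable {ι : Type w} {U : Ultrafilter ι} {K₀ : Type u} [Field K₀] [IsAlgClosed K₀] [CharZero K₀]
  {F' : Type v} [Field F'] [Algebra (Germ (U : Filter ι) K₀) F'] (S : UFam U K₀ F')
  {g : ℕ} (hF' : IsCurveOfGenus (Germ (U : Filter ι) K₀) F' g)

local notation "K*" => Germ (U : Filter ι) K₀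

/-- components of a linear combination with germ coefficients. -/
theorem comp_sum_smul {r : ℕ} (c : ι → Fin r → K₀) (b : Fin r → F') :
    ∀ᶠ i in (U : Filter ι),
      S.comp (∑ k, (((fun i => c i k : ι → K₀)) : K*) • b k) i = ∑ k, c i k • S.comp (b k) i := by
  have h1 := S.comp_sum Finset.univ (fun k => (((fun i => c i k : ι → K₀)) : K*) • b k)
  have h2 : ∀ᶠ i in (U : Filter ι), ∀ k : Fin r,
      S.comp ((((fun i => c i k : ι → K₀)) : K*) • b k) i = c i k • S.comp (b k) i := by
    rw [Filter.eventually_all]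
    intro k
    exact S.comp_smul (fun i => c i k) (b k)
  filter_upwards [h1, h2] with i hi1 hi2
  rw [hi1]
  exact Finset.sum_congr rfl fun k _ => hi2 k

/-- the components of a `K*`-linearly independent family are a.e. `K₀`-linearly independent. -/
theorem eventually_linearIndependent {r : ℕ} {b : Fin r → F'} (hb : LinearIndependent K* b) :
    ∀ᶠ i in (U : Filter ι), LinearIndependent K₀ (fun k => S.comp (b k) i) := by
  classical
  by_contra hcon
  have h0 : ∀ᶠ i in (U : Filter ι), ∃ c : Fin r → K₀,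
      (∑ k, c k • S.comp (b k) i = 0) ∧ c ≠ 0 := by
    filter_upwards [eventually_not_of_not U hcon] with i hi
    rw [Fintype.linearIndependent_iff] at hi
    push Not at hi
    obtain ⟨c, hc, k, hk⟩ := hi
    exact ⟨c, hc, fun h0 => hk (by rw [h0]; rfl)⟩
  have hch : ∀ i, ∃ c : Fin r → K₀, (∃ c : Fin r → K₀,
      (∑ k, c k • S.comp (b k) i = 0) ∧ c ≠ 0) → (∑ k, c k • S.comp (b k) i = 0) ∧ c ≠ 0 := by
    intro i
    by_cases hi : ∃ c : Fin r → K₀, (∑ k, c k • S.comp (b k) i = 0) ∧ c ≠ 0
    · obtain ⟨c, hc⟩ := hi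
      exact ⟨c, fun _ => hc⟩
    · exact ⟨0, fun h => absurd h hi⟩
  choose cf hcf using hch
  have hsum : ∑ k, (((fun i => cf i k : ι → K₀)) : K*) • b k = 0 := by
    apply S.eq_zero_of_comp
    filter_upwards [h0, S.comp_sum_smul cf b] with i hi1 hi2
    rw [hi2]
    exact (hcf i hi1).1
  have hzero := Fintype.linearIndependent_iff.1 hb _ hsum
  have h1 : ∀ᶠ i in (U : Filter ι), ∀ k : Fin r, cf i k = 0 := by
    rw [Filter.eventually_all]
    intro k
    have := hzero k
    have h2 : (((fun i => cf i k : ι → K₀)) : K*) = ((fun _ => (0 : K₀) : ι → K₀) : K*) := this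
    exact Germ.coe_eq.1 h2
  obtain ⟨i, hi1, hi2⟩ := (h0.and h1).exists
  exact (hcf i hi1).2 (funext hi2)

include hF' in
/-- **gluing in large degree.** -/
theorem exists_glue_of_large {D : Divisor K* F'} (hD : 2 * (g : ℤ) - 2 < Divisor.degree D)
    {u : ∀ i, S.Fc i}
    (hu : ∀ᶠ i in (U : Filter ι), u i ∈ riemannRochSpace (S.compDiv hF' i D)) :
    ∃ h ∈ riemannRochSpace D, ∀ᶠ i in (U : Filter ι), S.comp h i = u i := by
  classical
  haveI := hF'.finiteDimensional D
  set r := Module.finrank K* (riemannRochSpace D) with hr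
  let bas := Module.finBasis K* (riemannRochSpace D)
  let b : Fin r → F' := fun k => ((bas k : riemannRochSpace D) : F')
  have hbLI : LinearIndependent K* b :=
    bas.linearIndependent.map' (riemannRochSpace D).subtype (Submodule.ker_subtype _)
  have hreq : (r : ℤ) = Divisor.degree D + 1 - (g : ℤ) := hF'.riemann_eq D hD
  have h1 : ∀ᶠ i in (U : Filter ι), ∀ k : Fin r,
      S.comp (b k) i ∈ riemannRochSpace (S.compDiv hF' i D) := by
    rw [Filter.eventually_all]
    intro k
    exact S.comp_mem_rr hF' (bas k).2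
  have key : ∀ᶠ i in (U : Filter ι), ∃ c : Fin r → K₀, ∑ k, c k • S.comp (b k) i = u i := by
    filter_upwards [h1, S.eventually_linearIndependent hbLI, S.isCurveOfGenus_comp_eq hF', hu]
      with i hi1 hi2 hi3 hi4
    haveI := hi3.finiteDimensional (S.compDiv hF' i D)
    have hfr : (Module.finrank K₀ (riemannRochSpace (S.compDiv hF' i D)) : ℤ) = r := by
      rw [hi3.riemann_eq _ (by rw [S.degree_compDiv hF']; exact hD), S.degree_compDiv hF', hreq]
    let v : Fin r → riemannRochSpace (S.compDiv hF' i D) := fun k => ⟨S.comp (b k) i, hi1 k⟩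
    have hvLI : LinearIndependent K₀ v :=
      LinearIndependent.of_comp (riemannRochSpace (S.compDiv hF' i D)).subtype hi2
    have hspan : Submodule.span K₀ (Set.range v) = ⊤ :=
      hvLI.span_eq_top_of_card_eq_finrank' (by rw [Fintype.card_fin]; exact_mod_cast hfr.symm)
    have hmem : (⟨u i, hi4⟩ : riemannRochSpace (S.compDiv hF' i D)) ∈
        Submodule.span K₀ (Set.range v) := by rw [hspan]; exact Submodule.mem_top
    obtain ⟨c, hc⟩ := (Submodule.mem_span_range_iff_exists_fun K₀).1 hmem
    refine ⟨c, ?_⟩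
    have := congrArg (Subtype.val) hc
    simpa [v] using this
  have hch : ∀ i, ∃ c : Fin r → K₀, (∃ c : Fin r → K₀, ∑ k, c k • S.comp (b k) i = u i) →
      ∑ k, c k • S.comp (b k) i = u i := by
    intro i
    by_cases hi : ∃ c : Fin r → K₀, ∑ k, c k • S.comp (b k) i = u i
    · obtain ⟨c, hc⟩ := hi
      exact ⟨c, fun _ => hc⟩
    · exact ⟨0, fun h => absurd h hi⟩
  choose cf hcf using hch
  refine ⟨∑ k, (((fun i => cf i k : ι → K₀)) : K*) • b k, ?_, ?_⟩
  · exact Submodule.sum_mem _ fun k _ => Submodule.smul_mem _ _ (bas k).2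
  · filter_upwards [key, S.comp_sum_smul cf b] with i hi1 hi2
    rw [hi2]
    exact hcf i hi1

include hF' in
/-- **gluing** for an arbitrary divisor. -/
theorem exists_glue (D : Divisor K* F') {u : ∀ i, S.Fc i}
    (hu : ∀ᶠ i in (U : Filter ι), u i ∈ riemannRochSpace (S.compDiv hF' i D)) :
    ∃ h ∈ riemannRochSpace D, ∀ᶠ i in (U : Filter ι), S.comp h i = u i := by
  classical
  haveI := hF'.infinite_places
  obtain ⟨P₀⟩ : Nonempty (Place K* F') := inferInstance
  -- enlarge `D`
  obtain ⟨m, hm⟩ : ∃ m : ℕ, 2 * (g : ℤ) - 2 < Divisor.degree D + m := by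
    refine ⟨(2 * (g : ℤ) - 2 - Divisor.degree D).toNat + 1, ?_⟩
    have := Int.self_le_toNat (2 * (g : ℤ) - 2 - Divisor.degree D)
    push_cast
    omega
  set D' : Divisor K* F' := D + Finsupp.single P₀ (m : ℤ) with hD'
  have hdeg : Divisor.degree D' = Divisor.degree D + m := by
    rw [hD', map_add, Divisor.degree_single, hF'.deg_eq_one P₀]
    simp
  have hle : ∀ i, riemannRochSpace (S.compDiv hF' i D) ≤ riemannRochSpace (S.compDiv hF' i D') := by
    intro i
    apply Cech.rr_mono
    intro Q
    rw [hD', compDiv_add, compDiv_single, Finsupp.add_apply, Finsupp.single_apply]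
    split_ifs
    · have : (0 : ℤ) ≤ m := Int.natCast_nonneg m
      omega
    · omega
  obtain ⟨h, hh, hcomp⟩ := S.exists_glue_of_large hF' (D := D') (by rw [hdeg]; exact hm)
    (hu.mono fun i hi => hle i hi)
  refine ⟨h, ?_, hcomp⟩
  rcases eq_or_ne h 0 with rfl | hh0
  · exact Submodule.zero_mem _
  rw [Cech.mem_rr_of_ne hh0]
  intro R
  obtain ⟨i, hi1, hi2, hi3, hi4, hi5⟩ := ((S.ord_compPlace hF' R hh0).and
    (hcomp.and (hu.and ((S.compDiv_apply_compPlace hF' D R).and (S.comp_ne_zero hh0))))).exists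
  rw [hi2] at hi1 hi5
  have := (Cech.mem_rr_of_ne hi5).1 hi3 (S.compPlace hF' R i)
  rw [hi4, hi1] at this
  exact this

end UFam

end Fermat.Agent.S27lib.U
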