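/-
S27lib / U / Count  (helper7, Project D, block T2).

The transfer of the torsion count along an ultra-family (steps U5, U6):

* `CountAt K n g` : every curve of genus `g` over `K` has `n ^ (2g)` classes of order dividing `n`;
* `UFam.not_injective_of_card` (U5) and `UFam.exists_injective_of_card` (U6);
* `UFam.card_torsion` : if a.e. component has `n ^ (2g)` such classes then so has `F'`.
-/
import Mathlib
import Fermat.Agent.S27lib.U.Glue

set_option autoImplicit false
set_option linter.unusedSectionVars false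
set_option linter.style.haveILetI false

noncomputable section

namespace Fermat.Agent.S27lib.U

open AlgebraicCurve Filter IntermediateField Fermat.Agent.S18lib Fermat.Agent.ProgramR

universe u v w

/-- **the count statement** in the language of `IsCurveOfGenus`: every function field `F / K` of
genus `g` with a separating element has exactly `n ^ (2 g)` divisor classes of degree `0` killed
by `n`. -/
def CountAt.{u₁, u₂} (K : Type u₁) [Field K] (n g : ℕ) : Prop :=
  ∀ (F : Type u₂) [Field F] [Algebra K F] (x : F), Transcendental K x →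
    FiniteDimensional K⟮x⟯ F → Algebra.IsSeparable K⟮x⟯ F → IsCurveOfGenus K F g →
    Nat.card (Pic0.torsion K F n) = n ^ (2 * g)

/-! ### elementary facts on `Pic⁰` -/

section Pic

variable {K F : Type*} [Field K] [Field F] [Algebra K F]

theorem mk_eq_zero_iff (D : Divisor.degZero (K := K) (F := F)) :
    Pic0.mk D = 0 ↔ (D : Divisor K F) ∈ Divisor.principal (K := K) (F := F) := by
  unfold Pic0.mk
  rw [QuotientAddGroup.eq_zero_iff, AddSubgroup.mem_addSubgroupOf]

theorem mk_eq_mk_iff (D E : Divisor.degZero (K := K) (F := F)) :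
    Pic0.mk D = Pic0.mk E ↔
      (D : Divisor K F) - (E : Divisor K F) ∈ Divisor.principal (K := K) (F := F) := by
  rw [← sub_eq_zero]
  have : Pic0.mk D - Pic0.mk E = Pic0.mk (D - E) := rfl
  rw [this, mk_eq_zero_iff]
  rfl

theorem mk_mem_torsion_iff (n : ℕ) (D : Divisor.degZero (K := K) (F := F)) :
    Pic0.mk D ∈ Pic0.torsion K F n ↔
      n • (D : Divisor K F) ∈ Divisor.principal (K := K) (F := F) := by
  rw [Pic0.mem_torsion, natCast_zsmul]
  have : n • Pic0.mk D = Pic0.mk (n • D) := rfl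
  rw [this, mk_eq_zero_iff]
  rfl

/-- a type in which no `N + 1` elements are distinct is finite of cardinality at most `N`. -/
theorem card_le_of_forall_not_injective {α : Type*} {N : ℕ}
    (h : ∀ x : Fin (N + 1) → α, ¬ Function.Injective x) : Finite α ∧ Nat.card α ≤ N := by
  have hfin : Finite α := by
    by_contra hinf
    rw [not_finite_iff_infinite] at hinf
    exact h (fun j => Infinite.natEmbedding α j) (fun a b hab => by
      have := (Infinite.natEmbedding α).injective hab
      exact Fin.ext this)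
  refine ⟨hfin, ?_⟩
  by_contra hgt
  push Not at hgt
  haveI := Fintype.ofFinite α
  rw [Nat.card_eq_fintype_card] at hgt
  have e := (Fintype.equivFin α).symm
  exact h (fun j => e (Fin.castLE hgt j)) (fun a b hab => by
    have := e.injective hab
    exact Fin.castLE_injective hgt this)

end Pic

/-! ### representatives of torsion classes on a single curve -/

section Curve

variable {K F : Type*} [Field K] [Field F] [Algebra K F] {g : ℕ} (hF : IsCurveOfGenus K F g)

include hF in
/-- every class `y` killed by `n` is `[E - g P₀]` with `E ≥ 0`, and `n E - n g P₀ = div u`. -/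
theorem exists_rep_torsion (P₀ : Place K F) {n : ℕ} (y : Pic0.torsion K F n) :
    ∃ (u : F) (E : Divisor K F), u ≠ 0 ∧ 0 ≤ E ∧
      (∀ Q : Place K F, Q.ord u + (Finsupp.single P₀ ((n * g : ℕ) : ℤ) : Divisor K F) Q = n * E Q) ∧
      ∃ hdeg : E - Finsupp.single P₀ (g : ℤ) ∈ Divisor.degZero (K := K) (F := F),
        Pic0.mk ⟨E - Finsupp.single P₀ (g : ℤ), hdeg⟩ = (y : Pic0 K F) := by
  classical
  letI := hF.hasPrincipalDivisors
  obtain ⟨D, hD⟩ := Pic0.mk_surjective (y : Pic0 K F)
  have hD0 : Divisor.degree (D : Divisor K F) = 0 := D.2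
  set D' : Divisor K F := (D : Divisor K F) + Finsupp.single P₀ (g : ℤ) with hD'
  have hdegD' : Divisor.degree D' = g := by
    rw [hD', map_add, hD0, Divisor.degree_single, hF.deg_eq_one P₀]
    simp
  -- a nonzero section
  haveI := hF.finiteDimensional D'
  have hpos : 0 < Module.finrank K (riemannRochSpace D') := by
    have := hF.riemann_le D'
    rw [hdegD'] at this
    omega
  haveI : Nontrivial (riemannRochSpace D') := Module.nontrivial_of_finrank_pos hpos
  obtain ⟨⟨w, hwmem⟩, hw⟩ := exists_ne (0 : riemannRochSpace D')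
  have hw0 : w ≠ 0 := fun h => hw (Subtype.ext h)
  set E : Divisor K F := divOf (K := K) w + D' with hE
  have hEnn : 0 ≤ E := by
    have := (mem_riemannRochSpace_iff_divOf (K := K)).1 hwmem
    exact this.resolve_left hw0
  have hEdeg : Divisor.degree (E - Finsupp.single P₀ (g : ℤ)) = 0 := by
    rw [hE, hD', map_sub, map_add, map_add, degree_divOf, hD0, Divisor.degree_single,
      hF.deg_eq_one P₀]
    simp
  have hclass : Pic0.mk ⟨E - Finsupp.single P₀ (g : ℤ), hEdeg⟩ = (y : Pic0 K F) := by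
    rw [← hD, mk_eq_mk_iff]
    have : E - Finsupp.single P₀ (g : ℤ) - (D : Divisor K F) = divOf (K := K) w := by
      rw [hE, hD']
      abel
    show E - Finsupp.single P₀ (g : ℤ) - (D : Divisor K F) ∈ _
    rw [this]
    exact divOf_mem_principal hw0
  -- `n` kills the class
  have htors : n • (E - Finsupp.single P₀ (g : ℤ)) ∈ Divisor.principal (K := K) (F := F) := by
    have := y.2
    rw [← hclass] at this
    exact (mk_mem_torsion_iff n ⟨E - Finsupp.single P₀ (g : ℤ), hEdeg⟩).1 this
  obtain ⟨u, hu0, hu⟩ := htors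
  refine ⟨u, E, hu0, hEnn, ?_, hEdeg, hclass⟩
  intro Q
  have := hu Q
  rw [Finsupp.smul_apply, Finsupp.sub_apply, Finsupp.single_apply] at this
  rw [Finsupp.single_apply]
  split_ifs at this ⊢ with hQ
  · rw [← this]
    push_cast
    simp only [nsmul_eq_mul]
    ring
  · rw [← this]
    simp only [nsmul_eq_mul]
    ring

end Curve

/-! ### the transfer -/

namespace UFam

variable {ι : Type w} {U : Ultrafilter ι} {K₀ : Type u} [Field K₀] [IsAlgClosed K₀] [CharZero K₀]
  {F' : Type v} [Field F'] [Algebra (Germ (U : Filter ι) K₀) F'] (S : UFam U K₀ F')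
  {g : ℕ} (hF' : IsCurveOfGenus (Germ (U : Filter ι) K₀) F' g)

local notation "K*" => Germ (U : Filter ι) K₀

include hF' in
/-- **U5**: if a.e. component has exactly `N` classes killed by `n`, no `N + 1` such classes of
`F'` are distinct. -/
theorem not_injective_of_card {n N : ℕ} (hN : 0 < N)
    (H : ∀ᶠ i in (U : Filter ι), Nat.card (Pic0.torsion K₀ (S.Fc i) n) = N)
    (x : Fin (N + 1) → Pic0.torsion K* F' n) : ¬ Function.Injective x := by
  classical
  intro hinj
  have hsurj : ∀ j, ∃ D : Divisor.degZero (K := K*) (F := F'), Pic0.mk D = (x j : Pic0 K* F') :=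
    fun j => Pic0.mk_surjective _
  choose D hD using hsurj
  have hprin : ∀ j, n • (D j : Divisor K* F') ∈ Divisor.principal (K := K*) (F := F') := by
    intro j
    have := (x j).2
    rw [← hD j] at this
    exact (mk_mem_torsion_iff n (D j)).1 this
  choose f hf0 hf using hprin
  have hdeg0 : ∀ j, Divisor.degree (D j : Divisor K* F') = 0 := fun j => (D j).2
  -- a.e. statements
  have h1 : ∀ᶠ i in (U : Filter ι), ∀ j : Fin (N + 1), ∀ Q : Place K₀ (S.Fc i),
      S.compDiv hF' i (n • (D j : Divisor K* F')) Q = Q.ord (S.comp (f j) i) := by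
    rw [Filter.eventually_all]
    intro j
    exact S.compDiv_divisor hF' (hf0 j) (hf j)
  have h2 : ∀ᶠ i in (U : Filter ι), ∀ j : Fin (N + 1), S.comp (f j) i ≠ 0 := by
    rw [Filter.eventually_all]
    intro j
    exact S.comp_ne_zero (hf0 j)
  -- a.e. two of the component classes coincide
  have h3 : ∀ᶠ i in (U : Filter ι), ∃ p : Fin (N + 1) × Fin (N + 1), p.1 ≠ p.2 ∧
      ∃ u : S.Fc i, u ≠ 0 ∧ ∀ Q : Place K₀ (S.Fc i),
        S.compDiv hF' i ((D p.1 : Divisor K* F') - (D p.2 : Divisor K* F')) Q = Q.ord u := by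
    filter_upwards [h1, h2, H] with i hi1 hi2 hi3
    have hdz : ∀ j, S.compDiv hF' i (D j : Divisor K* F') ∈
        Divisor.degZero (K := K₀) (F := S.Fc i) := fun j => by
      rw [Divisor.mem_degZero, S.degree_compDiv hF', hdeg0 j]
    have htor : ∀ j, Pic0.mk ⟨S.compDiv hF' i (D j : Divisor K* F'), hdz j⟩ ∈
        Pic0.torsion K₀ (S.Fc i) n := by
      intro j
      rw [mk_mem_torsion_iff]
      refine ⟨S.comp (f j) i, hi2 j, fun Q => ?_⟩
      rw [← S.compDiv_nsmul hF']
      exact hi1 j Q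
    let y : Fin (N + 1) → Pic0.torsion K₀ (S.Fc i) n := fun j => ⟨_, htor j⟩
    haveI : Finite (Pic0.torsion K₀ (S.Fc i) n) := Nat.finite_of_card_ne_zero (by omega)
    have hni : ¬ Function.Injective y := by
      intro hy
      have := Nat.card_le_card_of_injective y hy
      rw [Nat.card_fin, hi3] at this
      omega
    rw [Function.Injective] at hni
    push Not at hni
    obtain ⟨j, k, hjk, hne⟩ := hni
    refine ⟨(j, k), hne, ?_⟩
    have h4 : Pic0.mk ⟨S.compDiv hF' i (D j : Divisor K* F'), hdz j⟩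
        = Pic0.mk ⟨S.compDiv hF' i (D k : Divisor K* F'), hdz k⟩ := congrArg Subtype.val hjk
    rw [mk_eq_mk_iff] at h4
    obtain ⟨u, hu0, hu⟩ := h4
    refine ⟨u, hu0, fun Q => ?_⟩
    rw [S.compDiv_sub hF']
    exact hu Q
  obtain ⟨⟨j, k⟩, hp⟩ := (Ultrafilter.eventually_exists_iff).1 h3
  have hjk : j ≠ k := by
    obtain ⟨i, hi⟩ := hp.exists
    exact hi.1
  set Δ : Divisor K* F' := (D j : Divisor K* F') - (D k : Divisor K* F') with hΔ
  have hex : ∀ i, ∃ u : S.Fc i, (∃ u : S.Fc i, u ≠ 0 ∧ ∀ Q : Place K₀ (S.Fc i),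
      S.compDiv hF' i Δ Q = Q.ord u) → u ≠ 0 ∧ ∀ Q : Place K₀ (S.Fc i),
      S.compDiv hF' i Δ Q = Q.ord u := by
    intro i
    by_cases hi : ∃ u : S.Fc i, u ≠ 0 ∧ ∀ Q : Place K₀ (S.Fc i), S.compDiv hF' i Δ Q = Q.ord u
    · obtain ⟨u, hu⟩ := hi
      exact ⟨u, fun _ => hu⟩
    · exact ⟨0, fun h => absurd h hi⟩
  choose uu huu using hex
  have hgood : ∀ᶠ i in (U : Filter ι), uu i ≠ 0 ∧ ∀ Q : Place K₀ (S.Fc i),
      S.compDiv hF' i Δ Q = Q.ord (uu i) :=
    hp.mono fun i hi => huu i hi.2
  have hmem : ∀ᶠ i in (U : Filter ι), uu i ∈ riemannRochSpace (S.compDiv hF' i (-Δ)) := by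
    filter_upwards [hgood] with i hi
    rw [Cech.mem_rr_of_ne hi.1]
    intro Q
    rw [S.compDiv_neg hF', Finsupp.neg_apply, neg_neg, hi.2 Q]
  obtain ⟨h, hh, hcomp⟩ := S.exists_glue hF' (-Δ) hmem
  have hh0 : h ≠ 0 := by
    rintro rfl
    obtain ⟨i, hi1, hi2, hi3⟩ := (hcomp.and (hgood.and S.comp_zero)).exists
    rw [hi3] at hi1
    exact hi2.1 hi1.symm
  have hdegΔ : Divisor.degree (-Δ) = 0 := by
    rw [hΔ, map_neg, map_sub, hdeg0 j, hdeg0 k]
    simp
  have hprinΔ : -Δ ∈ Divisor.principal (K := K*) (F := F') :=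
    Cech.mem_principal_of_mem_rr hF' hdegΔ hh hh0
  have hprinΔ' : Δ ∈ Divisor.principal (K := K*) (F := F') := by
    have := (Divisor.principal (K := K*) (F := F')).neg_mem hprinΔ
    rwa [neg_neg] at this
  have hmk : Pic0.mk (D j) = Pic0.mk (D k) := (mk_eq_mk_iff (D j) (D k)).2 hprinΔ'
  apply hjk
  apply hinj
  apply Subtype.ext
  rw [← hD j, ← hD k, hmk]

include hF' in
/-- **U6**: if a.e. component has `N` distinct classes killed by `n`, then `F'` has `N` distinct
such classes. -/
theorem exists_injective_of_injective {n N : ℕ} (hn : 2 ≤ n)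
    (H : ∀ᶠ i in (U : Filter ι), ∃ e : Fin N → Pic0.torsion K₀ (S.Fc i) n, Function.Injective e) :
    ∃ x : Fin N → Pic0.torsion K* F' n, Function.Injective x := by
  classical
  haveI := hF'.infinite_places
  obtain ⟨P₀⟩ : Nonempty (Place K* F') := inferInstance
  letI := hF'.hasPrincipalDivisors
  have hn0 : (n : ℤ) ≠ 0 := by
    have : (0 : ℤ) < n := by exact_mod_cast (by omega : 0 < n)
    omega
  set E₀ : Divisor K* F' := Finsupp.single P₀ ((n * g : ℕ) : ℤ) with hE₀
  have hdegE₀ : Divisor.degree E₀ = ((n * g : ℕ) : ℤ) := by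
    rw [hE₀, Divisor.degree_single, hF'.deg_eq_one P₀]
    simp
  -- the data of an index
  let Good : ∀ i, (Fin N → S.Fc i) → (Fin N → Divisor K₀ (S.Fc i)) → Prop := fun i uu EE =>
    (∀ j, uu j ≠ 0) ∧ (∀ j, 0 ≤ EE j) ∧
    (∀ j (Q : Place K₀ (S.Fc i)), Q.ord (uu j) + (S.compDiv hF' i E₀) Q = n * EE j Q) ∧
    (∀ j k, j ≠ k → EE j - EE k ∉ Divisor.principal (K := K₀) (F := S.Fc i))
  have key : ∀ᶠ i in (U : Filter ι), ∃ uu EE, Good i uu EE := by
    filter_upwards [H, S.isCurveOfGenus_comp_eq hF'] with i hi1 hi2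
    obtain ⟨e, he⟩ := hi1
    have hrep := fun j => exists_rep_torsion hi2 (S.compPlace hF' P₀ i) (e j)
    choose uu EE huu0 hEEnn hrel hdegE hcls using hrep
    refine ⟨uu, EE, huu0, hEEnn, ?_, ?_⟩
    · intro j Q
      rw [hE₀, S.compDiv_single hF']
      exact hrel j Q
    · intro j k hjk hprin
      apply hjk
      apply he
      apply Subtype.ext
      rw [← hcls j, ← hcls k, mk_eq_mk_iff]
      have : (EE j - Finsupp.single (S.compPlace hF' P₀ i) (g : ℤ))
          - (EE k - Finsupp.single (S.compPlace hF' P₀ i) (g : ℤ)) = EE j - EE k := by abel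
      show (EE j - Finsupp.single (S.compPlace hF' P₀ i) (g : ℤ))
          - (EE k - Finsupp.single (S.compPlace hF' P₀ i) (g : ℤ)) ∈ _
      rw [this]
      exact hprin
  have hch : ∀ i, ∃ (uu : Fin N → S.Fc i) (EE : Fin N → Divisor K₀ (S.Fc i)),
      (∃ uu EE, Good i uu EE) → Good i uu EE := by
    intro i
    by_cases hi : ∃ uu EE, Good i uu EE
    · obtain ⟨uu, EE, h⟩ := hi
      exact ⟨uu, EE, fun _ => h⟩
    · exact ⟨fun _ => 0, fun _ => 0, fun h => absurd h hi⟩
  choose uu EE hGood using hch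
  have hg : ∀ᶠ i in (U : Filter ι), Good i (uu i) (EE i) := key.mono fun i hi => hGood i hi
  -- glue
  have hmem : ∀ j : Fin N, ∀ᶠ i in (U : Filter ι),
      uu i j ∈ riemannRochSpace (S.compDiv hF' i E₀) := by
    intro j
    filter_upwards [hg] with i hi
    rw [Cech.mem_rr_of_ne (hi.1 j)]
    intro Q
    have h1 := hi.2.2.1 j Q
    have h2 : (0 : ℤ) ≤ EE i j Q := by
      have := Finsupp.le_def.1 (hi.2.1 j) Q
      simpa using this
    have h3 : (0 : ℤ) ≤ n * EE i j Q := mul_nonneg (Int.natCast_nonneg n) h2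
    omega
  have hglue := fun j => S.exists_glue hF' E₀ (hmem j)
  choose hh hhmem hhcomp using hglue
  have hh0 : ∀ j, hh j ≠ 0 := by
    intro j h0
    obtain ⟨i, hi1, hi2, hi3⟩ := ((hhcomp j).and (hg.and S.comp_zero)).exists
    rw [h0, hi3] at hi1
    exact hi2.1 j hi1.symm
  set Z : Fin N → Divisor K* F' := fun j => divOf (K := K*) (hh j) + E₀ with hZ
  have hdvd : ∀ j (R : Place K* F'), (n : ℤ) ∣ Z j R := by
    intro j R
    obtain ⟨i, hi1, hi2, hi3, hi4⟩ := ((S.ord_compPlace hF' R (hh0 j)).and ((hhcomp j).and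
      ((S.compDiv_apply_compPlace hF' E₀ R).and hg))).exists
    have h1 := hi4.2.2.1 j (S.compPlace hF' R i)
    rw [← hi2, hi1, hi3] at h1
    refine ⟨EE i j (S.compPlace hF' R i), ?_⟩
    rw [hZ]
    simp only [Finsupp.add_apply]
    rw [divOf_apply (hh0 j)]
    exact h1
  let Ej : Fin N → Divisor K* F' := fun j => (Z j).mapRange (fun z : ℤ => z / n) (by simp)
  have hnE : ∀ j, n • Ej j = Z j := by
    intro j
    ext R
    rw [Finsupp.smul_apply, Finsupp.mapRange_apply, nsmul_eq_mul]
    exact Int.mul_ediv_cancel' (hdvd j R)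
  let Dj : Fin N → Divisor K* F' := fun j => Ej j - Finsupp.single P₀ (g : ℤ)
  have hnD : ∀ j, n • Dj j = divOf (K := K*) (hh j) := by
    intro j
    show n • (Ej j - Finsupp.single P₀ (g : ℤ)) = _
    have hZj : Z j = divOf (K := K*) (hh j) + E₀ := rfl
    have : n • (Finsupp.single P₀ (g : ℤ) : Divisor K* F') = E₀ := by
      rw [hE₀, Finsupp.smul_single]
      congr 1
    rw [smul_sub, hnE j, hZj, this]
    exact add_sub_cancel_right _ _
  have hdegD : ∀ j, Dj j ∈ Divisor.degZero (K := K*) (F := F') := by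
    intro j
    rw [Divisor.mem_degZero]
    have h1 := congrArg Divisor.degree (hnD j)
    rw [map_nsmul, degree_divOf, nsmul_eq_mul] at h1
    rcases mul_eq_zero.1 h1 with h2 | h2
    · exact absurd h2 hn0
    · exact h2
  have htor : ∀ j, Pic0.mk ⟨Dj j, hdegD j⟩ ∈ Pic0.torsion K* F' n := by
    intro j
    rw [mk_mem_torsion_iff]
    show n • Dj j ∈ _
    rw [hnD j]
    exact divOf_mem_principal (hh0 j)
  refine ⟨fun j => ⟨_, htor j⟩, ?_⟩
  intro j k hjk
  by_contra hne
  have hmk : Pic0.mk ⟨Dj j, hdegD j⟩ = Pic0.mk ⟨Dj k, hdegD k⟩ := congrArg Subtype.val hjk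
  rw [mk_eq_mk_iff] at hmk
  have hsub : Dj j - Dj k = Ej j - Ej k := by
    show (Ej j - Finsupp.single P₀ (g : ℤ)) - (Ej k - Finsupp.single P₀ (g : ℤ)) = _
    abel
  obtain ⟨wf, hw0, hw⟩ := hmk
  -- evaluate at a good index
  have hcd : ∀ j' : Fin N, ∀ᶠ i in (U : Filter ι), ∀ Q : Place K₀ (S.Fc i),
      S.compDiv hF' i (divOf (K := K*) (hh j')) Q = Q.ord (uu i j') := by
    intro j'
    filter_upwards [S.compDiv_divisor hF' (hh0 j') (fun R => divOf_apply (hh0 j') R), hhcomp j']
      with i hi1 hi2 Q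
    rw [hi1 Q, hi2]
  obtain ⟨i, hi1, hi2, hi3, hi4, hi5⟩ := ((S.compDiv_divisor hF' hw0 hw).and
    ((S.comp_ne_zero hw0).and (hg.and ((hcd j).and (hcd k))))).exists
  have hEq : ∀ j' : Fin N, (∀ Q : Place K₀ (S.Fc i),
      S.compDiv hF' i (divOf (K := K*) (hh j')) Q = Q.ord (uu i j')) →
      S.compDiv hF' i (Ej j') = EE i j' := by
    intro j' hj'
    ext Q
    have h1 : (n : ℤ) * S.compDiv hF' i (Ej j') Q = n * EE i j' Q := by
      have h2 : S.compDiv hF' i (n • Ej j') Q = (n : ℤ) * S.compDiv hF' i (Ej j') Q := by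
        rw [S.compDiv_nsmul hF', Finsupp.smul_apply, nsmul_eq_mul]
      rw [← h2, hnE j', hZ]
      simp only []
      rw [S.compDiv_add hF', Finsupp.add_apply, hj' Q]
      exact hi3.2.2.1 j' Q
    exact mul_left_cancel₀ hn0 h1
  apply hi3.2.2.2 j k hne
  refine ⟨S.comp wf i, hi2, fun Q => ?_⟩
  rw [← hEq j hi4, ← hEq k hi5, ← S.compDiv_sub hF', ← hsub]
  exact hi1 Q

include hF' in
/-- **U6**, for components with exactly `N` classes. -/
theorem exists_injective_of_card {n N : ℕ} (hn : 2 ≤ n) (hN : 0 < N)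
    (H : ∀ᶠ i in (U : Filter ι), Nat.card (Pic0.torsion K₀ (S.Fc i) n) = N) :
    ∃ x : Fin N → Pic0.torsion K* F' n, Function.Injective x := by
  refine S.exists_injective_of_injective hF' hn ?_
  filter_upwards [H] with i hi
  haveI : Finite (Pic0.torsion K₀ (S.Fc i) n) := Nat.finite_of_card_ne_zero (by omega)
  exact ⟨(Finite.equivFinOfCardEq hi).symm, (Finite.equivFinOfCardEq hi).symm.injective⟩

include hF' in
/-- **the transfer of the torsion count along an ultra-family.** -/
theorem card_torsion {n : ℕ} (hn : 0 < n)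
    (H : ∀ᶠ i in (U : Filter ι), Nat.card (Pic0.torsion K₀ (S.Fc i) n) = n ^ (2 * g)) :
    Nat.card (Pic0.torsion K* F' n) = n ^ (2 * g) := by
  have hN : 0 < n ^ (2 * g) := pow_pos hn _
  obtain ⟨hfin, hle⟩ := card_le_of_forall_not_injective (S.not_injective_of_card hF' hN H)
  rcases Nat.lt_or_ge n 2 with h1 | h2
  · have hn1 : n = 1 := by omega
    subst hn1
    rw [one_pow] at hle ⊢
    have : 0 < Nat.card (Pic0.torsion K* F' 1) := Nat.card_pos
    omega
  · obtain ⟨x, hx⟩ := S.exists_injective_of_card hF' h2 hN H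
    have := Nat.card_le_card_of_injective x hx
    rw [Nat.card_fin] at this
    omega

end UFam

end Fermat.Agent.S27lib.U
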