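/-
S27lib / U / DiagDefs (helper7).

The diagonal family, definitions.  For a function field `F / K` (a finite `RatFunc K`-algebra) and an
ultrafilter `U` on `ι`: the ultrapower `DG = Germ U F` as an algebra over `RatFunc K*`
(`K* = Germ U K`), the diagonal `Δ : F → DG`, the base change `φ : RatFunc K → RatFunc K*` and the
compatibility `iRat ∘ φ = Δ ∘ algebraMap`.
-/
import Mathlib
import Fermat.Agent.S27lib.U.B.GermMap

set_option autoImplicit false

noncomputable section

namespace Fermat.Agent.S27lib.U.Diag

open Filter Polynomial Fermat.Agent.S27lib.T4 Fermat.Agent.S27lib.U.B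

universe u w

variable {ι : Type w} (U : Ultrafilter ι) (K : Type u) [Field K] (F : Type u) [Field F]
  [Algebra K F] [Algebra (RatFunc K) F] [IsScalarTower K (RatFunc K) F]

/-- the ultrapower of the constant field -/
abbrev KS : Type (max u w) := Germ (U : Filter ι) K

/-- the ultrapower of `F`, as a new type (to avoid Mathlib's module instances on germs) -/
def DG : Type (max u w) := Germ (U : Filter ι) F

instance : Field (DG U F) := inferInstanceAs (Field (Germ (U : Filter ι) F))

/-- the identification `Germ U F ≃ DG` -/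
def ofGerm : Germ (U : Filter ι) F ≃+* DG U F := RingEquiv.refl _

/-- germs as elements of `DG` -/
def toDG (f : ι → F) : DG U F := ofGerm U F ((f : ι → F) : Germ (U : Filter ι) F)

theorem toDG_eq_iff {f g : ι → F} : toDG U F f = toDG U F g ↔ f =ᶠ[(U : Filter ι)] g :=
  ((ofGerm U F).injective.eq_iff).trans Germ.coe_eq

theorem toDG_surjective (h : DG U F) : ∃ f : ι → F, toDG U F f = h := by
  obtain ⟨h', rfl⟩ := (ofGerm U F).surjective h
  induction h' using Germ.inductionOn with
  | _ f => exact ⟨f, rfl⟩

theorem toDG_add (f g : ι → F) : toDG U F (f + g) = toDG U F f + toDG U F g := by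
  rw [toDG, Germ.coe_add, map_add]; rfl
theorem toDG_mul (f g : ι → F) : toDG U F (f * g) = toDG U F f * toDG U F g := by
  rw [toDG, Germ.coe_mul, map_mul]; rfl
theorem toDG_inv (f : ι → F) : toDG U F f⁻¹ = (toDG U F f)⁻¹ := by
  rw [toDG, Germ.coe_inv, map_inv₀]; rfl
theorem toDG_one : toDG U F 1 = 1 := by
  rw [toDG, Germ.coe_one, map_one]
theorem toDG_zero : toDG U F 0 = 0 := by
  rw [toDG, Germ.coe_zero, map_zero]

/-- the diagonal embedding -/
def Δ : F →+* DG U F :=
  (ofGerm U F : Germ (U : Filter ι) F →+* DG U F).comp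
    ((Germ.coeRingHom (U : Filter ι)).comp (Pi.constRingHom ι F))

theorem Δ_apply (f : F) : Δ U F f = toDG U F (fun _ => f) := rfl

/-- the diagonal embedding of the constants -/
def diag : K →+* KS U K := (Germ.coeRingHom (U : Filter ι)).comp (Pi.constRingHom ι K)

theorem diag_apply (c : K) : diag U K c = ((fun _ => c : ι → K) : KS U K) := rfl

/-- `RatFunc K* → DG` -/
def iRat : RatFunc (KS U K) →+* DG U F :=
  (ofGerm U F : Germ (U : Filter ι) F →+* DG U F).comp
    ((germMapHom (U : Filter ι) (algebraMap (RatFunc K) F)).comp (ratComp U K))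

theorem iRat_apply (r : RatFunc (KS U K)) : iRat U K F r =
    ofGerm U F (germMapHom (U : Filter ι) (algebraMap (RatFunc K) F) (ratComp U K r)) := rfl

instance algRat : Algebra (RatFunc (KS U K)) (DG U F) := (iRat U K F).toAlgebra

instance algKS : Algebra (KS U K) (DG U F) :=
  ((iRat U K F).comp (algebraMap (KS U K) (RatFunc (KS U K)))).toAlgebra

instance : IsScalarTower (KS U K) (RatFunc (KS U K)) (DG U F) :=
  IsScalarTower.of_algebraMap_eq fun _ => rfl

theorem algebraMap_rat_apply (r : RatFunc (KS U K)) :
    algebraMap (RatFunc (KS U K)) (DG U F) r = iRat U K F r := rfl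

theorem iRat_X : iRat U K F RatFunc.X = Δ U F (algebraMap (RatFunc K) F RatFunc.X) := by
  rw [iRat_apply, ratComp_X, germMapHom_coe]
  rfl

theorem iRat_C (c : ι → K) : iRat U K F (RatFunc.C ((c : ι → K) : KS U K)) =
    toDG U F (fun i => algebraMap K F (c i)) := by
  rw [iRat_apply, ratComp_C, germMapHom_coe]
  refine (toDG_eq_iff U F).mpr (Eventually.of_forall fun i => ?_)
  show algebraMap (RatFunc K) F (RatFunc.C (c i)) = _
  rw [← RatFunc.algebraMap_eq_C, ← IsScalarTower.algebraMap_apply]

theorem algebraMap_KS_apply (c : ι → K) :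
    algebraMap (KS U K) (DG U F) ((c : ι → K) : KS U K) =
      toDG U F (fun i => algebraMap K F (c i)) := by
  show iRat U K F (algebraMap (KS U K) (RatFunc (KS U K)) _) = _
  rw [RatFunc.algebraMap_eq_C, iRat_C]

/-- polynomials over `K` as rational functions over `K*` -/
def polyDiag : K[X] →+* RatFunc (KS U K) :=
  (algebraMap (KS U K)[X] (RatFunc (KS U K))).comp (Polynomial.mapRingHom (diag U K))

theorem polyDiag_injective : Function.Injective (polyDiag U K) :=
  (IsFractionRing.injective (KS U K)[X] (RatFunc (KS U K))).comp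
    (Polynomial.map_injective _ (diag U K).injective)

/-- the base change `RatFunc K → RatFunc K*` -/
def φ : RatFunc K →+* RatFunc (KS U K) :=
  IsFractionRing.lift (K := RatFunc K) (polyDiag_injective U K)

theorem φ_algebraMap (p : K[X]) :
    φ U K (algebraMap K[X] (RatFunc K) p) = polyDiag U K p :=
  IsFractionRing.lift_algebraMap (polyDiag_injective U K) p

theorem polyComp_map_diag (p : K[X]) :
    polyComp U K (p.map (diag U K)) = ((fun _ => p : ι → K[X]) : Germ (U : Filter ι) K[X]) := by
  have h1 : p.map (diag U K) = (p.map (Pi.constRingHom ι K)).map (Germ.coeRingHom (U : Filter ι)) := by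
    rw [Polynomial.map_map]
    rfl
  rw [h1, polyComp_map_coe]
  refine Germ.coe_eq.mpr (Eventually.of_forall fun i => ?_)
  show polyAt K (p.map (Pi.constRingHom ι K)) i = p
  rw [polyAt, Polynomial.map_map]
  have : (Pi.evalRingHom (fun _ : ι => K) i).comp (Pi.constRingHom ι K) = RingHom.id K := rfl
  rw [this, Polynomial.map_id]

/-- **compatibility**: `iRat ∘ φ = Δ ∘ algebraMap` -/
theorem iRat_comp_φ :
    (iRat U K F).comp (φ U K) = (Δ U F).comp (algebraMap (RatFunc K) F) := by
  apply IsLocalization.ringHom_ext (nonZeroDivisors K[X])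
  refine RingHom.ext fun p => ?_
  simp only [RingHom.coe_comp, Function.comp_apply]
  rw [φ_algebraMap, polyDiag, RingHom.comp_apply, iRat_apply, ratComp_algebraMap,
    polyToRat, RingHom.comp_apply, coe_mapRingHom, polyComp_map_diag, germMapHom_coe,
    germMapHom_coe]
  rfl

theorem iRat_φ (c : RatFunc K) : iRat U K F (φ U K c) = Δ U F (algebraMap (RatFunc K) F c) :=
  congrArg (fun f : RatFunc K →+* DG U F => f c) (iRat_comp_φ U K F)

end Fermat.Agent.S27lib.U.Diag
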