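/-
S27lib / U / RatX (helper7).

A field `E` which is a finite `RatFunc K`-algebra (compatibly with `K`): the image `xE` of `X` is
transcendental over `K`, `E` is finite over `K⟮xE⟯`, of the same degree as over `RatFunc K`.
(Generic form of helper9's `U/B/Degree` lemmas for the component fields.)
-/
import Mathlib

set_option autoImplicit false

noncomputable section

namespace Fermat.Agent.S27lib.U

open Polynomial IntermediateField

variable (K : Type*) [Field K] (E : Type*) [Field E] [Algebra K E] [Algebra (RatFunc K) E]
  [IsScalarTower K (RatFunc K) E]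

/-- the image of `X` -/
def xE : E := algebraMap (RatFunc K) E RatFunc.X

theorem transcendental_xE : Transcendental K (xE K E) :=
  (transcendental_algebraMap_iff (FaithfulSMul.algebraMap_injective (RatFunc K) E)).mpr
    RatFunc.transcendental_X

/-- the comparison `K(X) ≃ K(xE)` is compatible with the algebra maps to `E` -/
theorem algebraMap_comp_algEquiv_xE :
    (algebraMap K⟮xE K E⟯ E).comp
      ((RatFunc.algEquivOfTranscendental (xE K E) (transcendental_xE K E) :
        RatFunc K ≃+* K⟮xE K E⟯) : RatFunc K →+* K⟮xE K E⟯) = algebraMap (RatFunc K) E := by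
  apply IsLocalization.ringHom_ext (nonZeroDivisors K[X])
  refine RingHom.ext fun p => ?_
  simp only [RingHom.coe_comp, Function.comp_apply, RingHom.coe_coe]
  have h2 : (RatFunc.algEquivOfTranscendental (xE K E) (transcendental_xE K E) :
      RatFunc K ≃+* K⟮xE K E⟯) (algebraMap K[X] (RatFunc K) p) =
        Polynomial.aeval (AdjoinSimple.gen K (xE K E)) p :=
    RatFunc.algEquivOfTranscendental_algebraMap _ _ p
  rw [h2, ← Polynomial.aeval_algebraMap_apply, AdjoinSimple.algebraMap_gen]
  have h3 : algebraMap (RatFunc K) E (algebraMap K[X] (RatFunc K) p) =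
      Polynomial.aeval (xE K E) p := by
    have := Polynomial.aeval_algebraMap_apply (A := RatFunc K) E (RatFunc.X : RatFunc K) p
    rw [show Polynomial.aeval (RatFunc.X : RatFunc K) p = algebraMap K[X] (RatFunc K) p from by
      rw [← RatFunc.algebraMap_X, Polynomial.aeval_algebraMap_apply, Polynomial.aeval_X_left_apply]]
      at this
    exact this.symm
  exact h3.symm

theorem finiteDimensional_adjoin_xE [FiniteDimensional (RatFunc K) E] :
    FiniteDimensional K⟮xE K E⟯ E :=
  Module.Finite.of_equiv_equiv (A₁ := RatFunc K) (B₁ := E)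
    (RatFunc.algEquivOfTranscendental (xE K E) (transcendental_xE K E) :
      RatFunc K ≃+* K⟮xE K E⟯) (RingEquiv.refl _) (by
      rw [← algebraMap_comp_algEquiv_xE K E]
      ext r
      simp)

theorem finrank_adjoin_xE :
    Module.finrank K⟮xE K E⟯ E = Module.finrank (RatFunc K) E :=
  (Algebra.finrank_eq_of_equiv_equiv
    (RatFunc.algEquivOfTranscendental (xE K E) (transcendental_xE K E) :
      RatFunc K ≃+* K⟮xE K E⟯) (RingEquiv.refl _) (by
      rw [← algebraMap_comp_algEquiv_xE K E]
      ext r
      simp)).symm

end Fermat.Agent.S27lib.U
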