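/-
S27lib / U / DiagField (helper7).

The diagonal function field `FD = K*(X)(Δy) ⊆ DG = Germ U F` of a function field `F = K(X)(y)`:
it contains `Δ F`, is finite over `RatFunc K*` of degree at least `[F : K(X)]` (Łoś), and its
component maps `comp : FD → ι → F` (any representative).
-/
import Mathlib
import Fermat.Agent.S27lib.U.DiagDefs
import Fermat.Agent.S27lib.U.RatX

set_option autoImplicit false
set_option linter.unusedSectionVars false

noncomputable section

namespace Fermat.Agent.S27lib.U.Diag

open Filter Polynomial IntermediateField Module Fermat.Agent.S27lib.T4 Fermat.Agent.S27lib.U.B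

universe u w

variable {ι : Type w} (U : Ultrafilter ι) (K : Type u) [Field K] (F : Type u) [Field F]
  [Algebra K F] [Algebra (RatFunc K) F] [IsScalarTower K (RatFunc K) F]

/-- `toDG` as a ring homomorphism -/
def toDGHom : (ι → F) →+* DG U F :=
  (ofGerm U F : Germ (U : Filter ι) F →+* DG U F).comp (Germ.coeRingHom (U : Filter ι))

theorem toDGHom_apply (f : ι → F) : toDGHom U F f = toDG U F f := rfl

theorem toDG_eq_zero_iff {f : ι → F} : toDG U F f = 0 ↔ ∀ᶠ i in (U : Filter ι), f i = 0 := by
  rw [← toDG_zero, toDG_eq_iff]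
  rfl

variable [FiniteDimensional (RatFunc K) F]

theorem isIntegral_Δ (f : F) : IsIntegral (RatFunc (KS U K)) (Δ U F f) :=
  IsIntegral.map_of_comp_eq (φ U K) (Δ U F) (iRat_comp_φ U K F) (Algebra.IsIntegral.isIntegral f)

variable (y : F)

/-- the diagonal function field `K*(X)(Δy)` -/
def FD : IntermediateField (RatFunc (KS U K)) (DG U F) := (RatFunc (KS U K))⟮Δ U F y⟯

instance : FiniteDimensional (RatFunc (KS U K)) (FD U K F y) :=
  adjoin.finiteDimensional (isIntegral_Δ U K F y)

theorem Δ_y_mem : Δ U F y ∈ FD U K F y := mem_adjoin_simple_self _ _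

theorem iRat_mem (r : RatFunc (KS U K)) : iRat U K F r ∈ FD U K F y :=
  (FD U K F y).algebraMap_mem r

variable {y} (hy : (RatFunc K)⟮y⟯ = ⊤)

include hy in
/-- the diagonal function field contains the diagonal image of `F` -/
theorem Δ_mem (f : F) : Δ U F f ∈ FD U K F y := by
  have hmem : f ∈ (RatFunc K)⟮y⟯ := hy ▸ mem_top
  induction hmem using adjoin_induction with
  | mem a ha =>
    rw [Set.mem_singleton_iff] at ha
    subst ha
    exact Δ_y_mem U K F a
  | algebraMap r =>
    rw [← iRat_φ]
    exact iRat_mem U K F y _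
  | add a b _ _ ha hb =>
    rw [map_add]
    exact add_mem ha hb
  | inv a _ ha =>
    rw [map_inv₀]
    exact inv_mem ha
  | mul a b _ _ ha hb =>
    rw [map_mul]
    exact mul_mem ha hb

include hy in
theorem natDegree_minpoly_eq :
    (minpoly (RatFunc K) y).natDegree = finrank (RatFunc K) F := by
  have hint : IsIntegral (RatFunc K) y := Algebra.IsIntegral.isIntegral y
  rw [← adjoin.finrank hint, hy]
  exact IntermediateField.finrank_top'

include hy in
/-- **Łoś**: `[F : K(X)] ≤ [FD : K*(X)]` -/
theorem finrank_le_finrank_FD :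
    finrank (RatFunc K) F ≤ finrank (RatFunc (KS U K)) (FD U K F y) := by
  classical
  have hli := linearIndependent_pow (K := RatFunc K) y
  set n := (minpoly (RatFunc K) y).natDegree with hn
  set y' : FD U K F y := ⟨Δ U F y, Δ_y_mem U K F y⟩ with hy'
  have hli' : LinearIndependent (RatFunc (KS U K)) fun j : Fin n => y' ^ (j : ℕ) := by
    rw [Fintype.linearIndependent_iff]
    intro r hr j₀
    have h1 : ∑ j, iRat U K F (r j) * (Δ U F y) ^ (j : ℕ) = 0 := by
      have := congrArg (fun z : FD U K F y => (z : DG U F)) hr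
      simp only [AddSubmonoidClass.coe_finsetSum, IntermediateField.coe_smul,
        SubmonoidClass.coe_pow, ZeroMemClass.coe_zero] at this
      rw [← this]
      refine Finset.sum_congr rfl fun j _ => ?_
      rw [Algebra.smul_def]
      rfl
    have hsurj : ∀ j, ∃ ρ : ι → RatFunc K,
        ((ρ : ι → RatFunc K) : Germ (U : Filter ι) (RatFunc K)) = ratComp U K (r j) := fun j =>
      coeRingHom_surjective U (RatFunc K) (ratComp U K (r j))
    choose ρ hρ using hsurj
    have h2 : ∀ j, iRat U K F (r j) = toDGHom U F (fun i => algebraMap (RatFunc K) F (ρ j i)) := by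
      intro j
      rw [iRat_apply, ← hρ j, germMapHom_coe]
      rfl
    have h3 : ∀ j : Fin n, (Δ U F y) ^ (j : ℕ) = toDGHom U F (fun _ => y ^ (j : ℕ)) := by
      intro j
      rw [← map_pow]
      rfl
    simp only [h2, h3, ← map_mul, ← map_sum] at h1
    rw [toDGHom_apply, toDG_eq_zero_iff] at h1
    have h4 : ∀ᶠ i in (U : Filter ι), ρ j₀ i = 0 := by
      filter_upwards [h1] with i hi
      have h5 : ∑ j : Fin n, ρ j i • y ^ (j : ℕ) = 0 := by
        rw [← hi]
        simp only [Finset.sum_apply, Pi.mul_apply, Algebra.smul_def]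
      exact Fintype.linearIndependent_iff.mp hli (fun j => ρ j i) h5 j₀
    have h6 : ratComp U K (r j₀) = 0 := by
      rw [← hρ j₀]
      exact Germ.coe_eq.mpr h4
    exact (map_eq_zero (ratComp U K)).mp h6
  have := hli'.fintype_card_le_finrank
  rw [Fintype.card_fin, hn, natDegree_minpoly_eq K F hy] at this
  exact this

/-! ### the component maps -/

variable (y)

/-- the component maps: any representative -/
def comp (h : FD U K F y) : ι → F := Quotient.out ((ofGerm U F).symm (h : DG U F))

theorem toDG_comp (h : FD U K F y) : toDG U F (comp U K F y h) = (h : DG U F) := by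
  have h1 : ((comp U K F y h : ι → F) : Germ (U : Filter ι) F) = (ofGerm U F).symm (h : DG U F) :=
    Quotient.out_eq _
  rw [toDG, h1]
  exact (ofGerm U F).apply_symm_apply _

theorem comp_eventuallyEq {h : FD U K F y} {f : ι → F} (hf : toDG U F f = (h : DG U F)) :
    comp U K F y h =ᶠ[(U : Filter ι)] f :=
  (toDG_eq_iff U F).mp ((toDG_comp U K F y h).trans hf.symm)

theorem comp_add (a b : FD U K F y) : ∀ᶠ i in (U : Filter ι),
    comp U K F y (a + b) i = comp U K F y a i + comp U K F y b i := by
  apply comp_eventuallyEq U K F y (f := comp U K F y a + comp U K F y b)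
  rw [toDG_add, toDG_comp, toDG_comp]
  rfl

theorem comp_mul (a b : FD U K F y) : ∀ᶠ i in (U : Filter ι),
    comp U K F y (a * b) i = comp U K F y a i * comp U K F y b i := by
  apply comp_eventuallyEq U K F y (f := comp U K F y a * comp U K F y b)
  rw [toDG_mul, toDG_comp, toDG_comp]
  rfl

theorem comp_one : ∀ᶠ i in (U : Filter ι), comp U K F y 1 i = 1 := by
  apply comp_eventuallyEq U K F y (f := 1)
  rw [toDG_one]
  rfl

theorem comp_const (c : ι → K) : ∀ᶠ i in (U : Filter ι),
    comp U K F y (algebraMap (KS U K) (FD U K F y) ((c : ι → K) : KS U K)) i =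
      algebraMap K F (c i) := by
  apply comp_eventuallyEq U K F y (f := fun i => algebraMap K F (c i))
  rw [← algebraMap_KS_apply]
  rfl

theorem comp_xE : ∀ᶠ i in (U : Filter ι),
    comp U K F y (xE (KS U K) (FD U K F y)) i = xE K F := by
  apply comp_eventuallyEq U K F y (f := fun _ => xE K F)
  rw [← Δ_apply]
  show _ = iRat U K F RatFunc.X
  rw [iRat_X]
  rfl

/-- the diagonal embedding into `FD` -/
def ΔFD : F →+* FD U K F y where
  toFun f := ⟨Δ U F f, Δ_mem U K F hy f⟩
  map_one' := Subtype.ext (map_one _)
  map_mul' a b := Subtype.ext (map_mul _ a b)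
  map_zero' := Subtype.ext (map_zero _)
  map_add' a b := Subtype.ext (map_add _ a b)

theorem comp_ΔFD (f : F) : ∀ᶠ i in (U : Filter ι), comp U K F y (ΔFD U K F y hy f) i = f := by
  apply comp_eventuallyEq U K F y (f := fun _ => f)
  rfl

end Fermat.Agent.S27lib.U.Diag
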