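/-
S27lib / U / PoleDeg (helper7).

The degree of the divisor of poles `pdeg f = deg (f)_∞` of a function on a curve: it is
subadditive under `+` and `*`, invariant under `⁻¹`, zero on constants, and bounds all orders.
(Used for Step A of the diagonal family.)
-/
import Mathlib
import Fermat.Agent.S18lib.Tame.ZeroPole
import Fermat.Agent.S18lib.Cech.CurveBasics

set_option autoImplicit false

noncomputable section

namespace Fermat.Agent.S27lib.U

open AlgebraicCurve Fermat.Agent.S18lib

variable (K : Type*) {F : Type*} [Field K] [Field F] [Algebra K F] [HasPrincipalDivisors K F]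

/-- the degree of the divisor of poles -/
def pdeg (f : F) : ℤ := Divisor.degree (Tame.poleDiv (K := K) f)

variable {K}

theorem degree_le_degree_of_le {D D' : Divisor K F} (h : D ≤ D') :
    Divisor.degree D ≤ Divisor.degree D' := by
  have h1 : 0 ≤ Divisor.degree (D' - D) :=
    Cech.degree_nonneg_of_nonneg fun v => by
      have := h v
      rw [Finsupp.sub_apply]
      omega
  rw [map_sub] at h1
  omega

theorem pdeg_nonneg (f : F) : 0 ≤ pdeg K f :=
  Cech.degree_nonneg_of_nonneg fun v => by
    have := Tame.poleDiv_nonneg (K := K) f v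
    simpa using this

theorem poleDiv_add_le (a b : F) :
    Tame.poleDiv (K := K) (a + b) ≤ Tame.poleDiv (K := K) a + Tame.poleDiv (K := K) b := by
  intro v
  rw [Finsupp.add_apply, Tame.poleDiv_apply, Tame.poleDiv_apply, Tame.poleDiv_apply]
  have h := Cech.ord_add_ge v (f := a) (g := b) (n := min (v.ord a) (v.ord b))
    (Or.inr (min_le_left _ _)) (Or.inr (min_le_right _ _))
  have h1 := le_max_left (-v.ord a) 0
  have h2 := le_max_right (-v.ord a) 0
  have h3 := le_max_left (-v.ord b) 0
  have h4 := le_max_right (-v.ord b) 0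
  rcases h with h | h
  · rw [h, Place.ord_zero]
    simp only [neg_zero, max_self]
    omega
  · apply max_le
    · rcases le_total (v.ord a) (v.ord b) with hab | hab
      · rw [min_eq_left hab] at h
        omega
      · rw [min_eq_right hab] at h
        omega
    · omega

theorem poleDiv_mul_le (a b : F) :
    Tame.poleDiv (K := K) (a * b) ≤ Tame.poleDiv (K := K) a + Tame.poleDiv (K := K) b := by
  intro v
  rw [Finsupp.add_apply, Tame.poleDiv_apply, Tame.poleDiv_apply, Tame.poleDiv_apply]
  have h1 := le_max_left (-v.ord a) 0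
  have h2 := le_max_right (-v.ord a) 0
  have h3 := le_max_left (-v.ord b) 0
  have h4 := le_max_right (-v.ord b) 0
  by_cases ha : a = 0
  · rw [ha, zero_mul, Place.ord_zero]
    simp only [neg_zero, max_self]
    omega
  by_cases hb : b = 0
  · rw [hb, mul_zero, Place.ord_zero]
    simp only [neg_zero, max_self]
    omega
  rw [v.ord_mul ha hb]
  apply max_le <;> omega

theorem pdeg_add_le (a b : F) : pdeg K (a + b) ≤ pdeg K a + pdeg K b := by
  have := degree_le_degree_of_le (poleDiv_add_le (K := K) a b)
  rw [map_add] at this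
  exact this

theorem pdeg_mul_le (a b : F) : pdeg K (a * b) ≤ pdeg K a + pdeg K b := by
  have := degree_le_degree_of_le (poleDiv_mul_le (K := K) a b)
  rw [map_add] at this
  exact this

theorem pdeg_inv (a : F) : pdeg K a⁻¹ = pdeg K a := by
  have h : Tame.poleDiv (K := K) a⁻¹ = Tame.zeroDiv (K := K) a := by
    ext v
    rw [Tame.poleDiv_apply, Tame.zeroDiv_apply, v.ord_inv, neg_neg]
  rw [pdeg, h, Tame.degree_zeroDiv]
  rfl

theorem pdeg_algebraMap (c : K) : pdeg K (algebraMap K F c) = 0 := by
  have h : Tame.poleDiv (K := K) (algebraMap K F c) = 0 := by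
    ext v
    rw [Tame.poleDiv_apply, Cech.ord_const]
    simp
  rw [pdeg, h, map_zero]

/-- a coefficient of an effective divisor is at most its degree (all places of degree one) -/
theorem apply_le_degree_of_nonneg (hdeg : ∀ Q : Place K F, Q.deg = 1) {D : Divisor K F}
    (hD : 0 ≤ D) (Q : Place K F) : D Q ≤ Divisor.degree D := by
  classical
  rw [Cech.degree_eq_sum']
  have hterm : ∀ v ∈ D.support, 0 ≤ D v * (v.deg : ℤ) := fun v _ =>
    mul_nonneg (by simpa using hD v) (Int.natCast_nonneg _)
  by_cases hQ : Q ∈ D.support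
  · have := Finset.single_le_sum hterm hQ
    rw [hdeg Q] at this
    simpa using this
  · rw [Finsupp.notMem_support_iff.mp hQ]
    exact Finset.sum_nonneg hterm

/-- **all orders of a function are bounded by the degree of its divisor of poles** -/
theorem abs_ord_le_pdeg (hdeg : ∀ Q : Place K F, Q.deg = 1) (a : F) (Q : Place K F) :
    |Q.ord a| ≤ pdeg K a := by
  have h1 := apply_le_degree_of_nonneg hdeg (Tame.poleDiv_nonneg (K := K) a) Q
  have h2 := apply_le_degree_of_nonneg hdeg (Tame.zeroDiv_nonneg (K := K) a) Q
  rw [Tame.poleDiv_apply] at h1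
  rw [Tame.zeroDiv_apply, Tame.degree_zeroDiv] at h2
  rw [abs_le]
  have h3 := le_max_left (-Q.ord a) 0
  have h4 := le_max_left (Q.ord a) 0
  unfold pdeg
  constructor <;> omega

end Fermat.Agent.S27lib.U
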