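/-
S27lib / U / DiagFam (helper7).

Step A for the diagonal function field and the assembly of the diagonal `UFam`:
a function field `F / K` gives the function field `FD = K*·ΔF` over the ultrapower `K* = Germ U K`,
all of whose components are `F` itself.
-/
import Mathlib
import Fermat.Agent.S27lib.U.Basic
import Fermat.Agent.S27lib.U.DiagField
import Fermat.Agent.S27lib.U.PoleDeg
import Fermat.Agent.S27lib.T4.GermField
import Fermat.Agent.S18lib.RRgen.Canonical

set_option autoImplicit false
set_option linter.unusedSectionVars false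
set_option linter.style.haveILetI false

noncomputable section

namespace Fermat.Agent.S27lib.U.Diag

open Filter Polynomial IntermediateField Module AlgebraicCurve Fermat.Agent.S18lib
  Fermat.Agent.S27lib.T4 Fermat.Agent.S27lib.U.B

universe u w

variable {ι : Type w} (U : Ultrafilter ι) (K : Type u) [Field K] (F : Type u) [Field F]
  [Algebra K F] [Algebra (RatFunc K) F] [IsScalarTower K (RatFunc K) F]
  [HasPrincipalDivisors K F]

/-! ### Step A -/

/-- a germ has a representative with uniformly bounded pole degree -/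
def Bdd (h : DG U F) : Prop :=
  ∃ (B : ℤ) (f : ι → F), toDG U F f = h ∧ ∀ᶠ i in (U : Filter ι), pdeg K (f i) ≤ B

variable {U K F}

theorem Bdd.add {a b : DG U F} (ha : Bdd U K F a) (hb : Bdd U K F b) : Bdd U K F (a + b) := by
  obtain ⟨A, f, hf, hA⟩ := ha
  obtain ⟨B, g, hg, hB⟩ := hb
  refine ⟨A + B, f + g, by rw [toDG_add, hf, hg], ?_⟩
  filter_upwards [hA, hB] with i h1 h2
  exact (pdeg_add_le (f i) (g i)).trans (add_le_add h1 h2)

theorem Bdd.mul {a b : DG U F} (ha : Bdd U K F a) (hb : Bdd U K F b) : Bdd U K F (a * b) := by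
  obtain ⟨A, f, hf, hA⟩ := ha
  obtain ⟨B, g, hg, hB⟩ := hb
  refine ⟨A + B, f * g, by rw [toDG_mul, hf, hg], ?_⟩
  filter_upwards [hA, hB] with i h1 h2
  exact (pdeg_mul_le (f i) (g i)).trans (add_le_add h1 h2)

theorem Bdd.inv {a : DG U F} (ha : Bdd U K F a) : Bdd U K F a⁻¹ := by
  obtain ⟨A, f, hf, hA⟩ := ha
  refine ⟨A, f⁻¹, by rw [toDG_inv, hf], ?_⟩
  filter_upwards [hA] with i h1
  rw [Pi.inv_apply, pdeg_inv]
  exact h1

variable (U K F)

theorem bdd_Δ (f : F) : Bdd U K F (Δ U F f) :=
  ⟨pdeg K f, fun _ => f, rfl, Eventually.of_forall fun _ => le_rfl⟩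

theorem bdd_algebraMap_KS (c : KS U K) : Bdd U K F (algebraMap (KS U K) (DG U F) c) := by
  induction c using Germ.inductionOn with
  | _ c =>
    refine ⟨0, fun i => algebraMap K F (c i), (algebraMap_KS_apply U K F c).symm, ?_⟩
    exact Eventually.of_forall fun i => (pdeg_algebraMap (c i)).le

theorem bdd_iRat_poly (p : (KS U K)[X]) :
    Bdd U K F (iRat U K F (algebraMap (KS U K)[X] (RatFunc (KS U K)) p)) := by
  induction p using Polynomial.induction_on with
  | C a =>
    have : algebraMap (KS U K)[X] (RatFunc (KS U K)) (C a) =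
        algebraMap (KS U K) (RatFunc (KS U K)) a := by
      rw [RatFunc.algebraMap_eq_C, RatFunc.algebraMap_C]
    rw [this]
    exact bdd_algebraMap_KS U K F a
  | add p q hp hq =>
    rw [map_add, map_add]
    exact hp.add hq
  | monomial n a h =>
    rw [pow_succ, ← mul_assoc, map_mul, map_mul, RatFunc.algebraMap_X, iRat_X]
    exact h.mul (bdd_Δ U K F _)

theorem bdd_iRat (r : RatFunc (KS U K)) : Bdd U K F (iRat U K F r) := by
  induction r using RatFunc.induction_on with
  | f p q hq =>
    rw [div_eq_mul_inv, map_mul, map_inv₀]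
    exact (bdd_iRat_poly U K F p).mul (bdd_iRat_poly U K F q).inv

variable [FiniteDimensional (RatFunc K) F] (y : F)

/-- **Step A for the diagonal family** -/
theorem bdd_of_mem {h : DG U F} (hh : h ∈ FD U K F y) : Bdd U K F h := by
  induction hh using adjoin_induction with
  | mem a ha =>
    rw [Set.mem_singleton_iff] at ha
    subst ha
    exact bdd_Δ U K F y
  | algebraMap r => exact bdd_iRat U K F r
  | add a b _ _ ha hb => exact ha.add hb
  | inv a _ ha => exact ha.inv
  | mul a b _ _ ha hb => exact ha.mul hb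

theorem exists_ord_bound (hdeg : ∀ Q : Place K F, Q.deg = 1) (h : FD U K F y) :
    ∃ B : ℤ, ∀ᶠ i in (U : Filter ι), ∀ Q : Place K F, -B ≤ Q.ord (comp U K F y h i) := by
  obtain ⟨B, f, hf, hB⟩ := bdd_of_mem U K F y h.2
  refine ⟨B, ?_⟩
  filter_upwards [comp_eventuallyEq U K F y hf, hB] with i hi hBi Q
  rw [hi]
  have := abs_ord_le_pdeg hdeg (f i) Q
  have h2 := (abs_le.mp this).1
  omega

end Fermat.Agent.S27lib.U.Diag
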