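/-
S27lib / U / Descent (helper7).

**Diagonal descent (TD)**: `CountAt (Germ U K) n g → CountAt K n g` for every ultrafilter `U` and
every algebraically closed field `K` of characteristic zero.  A function field `F / K` gives the
function field `FD = K*·ΔF ⊆ Germ U F` over `K* = Germ U K`; it is an ultra-family (`UFam`) all of
whose components are `F`, so the counting theorems U5/U6 compare `Pic⁰(F)[n]` and `Pic⁰(FD)[n]`.
-/
import Mathlib
import Fermat.Agent.S27lib.U.Count
import Fermat.Agent.S27lib.U.DiagFam

set_option autoImplicit false
set_option linter.unusedSectionVars false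
set_option linter.style.haveILetI false

noncomputable section

namespace Fermat.Agent.S27lib.U.Diag

open Filter Polynomial IntermediateField Module AlgebraicCurve Fermat.Agent.S18lib
  Fermat.Agent.S27lib.T4 Fermat.Agent.S27lib.U.B

universe u w

variable {ι : Type w} (U : Ultrafilter ι) (K : Type u) [Field K] [IsAlgClosed K] [CharZero K]
  (F : Type u) [Field F] [Algebra K F] [Algebra (RatFunc K) F] [IsScalarTower K (RatFunc K) F]
  [FiniteDimensional (RatFunc K) F] [HasPrincipalDivisors K F]

instance : CharZero (KS U K) := charZero_germ U K

instance : IsAlgClosed (KS U K) := isAlgClosed_germ U K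

instance charZero_adjoin_xE (E : Type*) [Field E] (k : Type*) [Field k] [CharZero k] [Algebra k E]
    [Algebra (RatFunc k) E] [IsScalarTower k (RatFunc k) E] : CharZero k⟮xE k E⟯ :=
  charZero_of_injective_algebraMap (algebraMap k k⟮xE k E⟯).injective

/-- **the diagonal ultra-family**: all components are `F`. -/
def diagFam (hdeg : ∀ Q : Place K F, Q.deg = 1) {y : F} (hy : (RatFunc K)⟮y⟯ = ⊤) :
    UFam U K (FD U K F y) where
  Fc := fun _ => F
  instField := fun _ => inferInstance
  instAlgebra := fun _ => inferInstance
  comp := comp U K F y
  comp_add := comp_add U K F y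
  comp_mul := comp_mul U K F y
  comp_one := comp_one U K F y
  comp_const := comp_const U K F y
  x := xE (KS U K) (FD U K F y)
  xc := fun _ => xE K F
  comp_x := comp_xE U K F y
  transc_x := transcendental_xE _ _
  finite_x := finiteDimensional_adjoin_xE _ _
  sep_x := by
    haveI := finiteDimensional_adjoin_xE (KS U K) (FD U K F y)
    infer_instance
  transc_xc := fun _ => transcendental_xE K F
  finite_xc := fun _ => finiteDimensional_adjoin_xE K F
  sep_xc := fun _ => by
    haveI := finiteDimensional_adjoin_xE K F
    infer_instance
  finrank_le := Eventually.of_forall fun _ => by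
    rw [finrank_adjoin_xE, finrank_adjoin_xE]
    exact finrank_le_finrank_FD U K F hy
  bounded := fun h _ => exists_ord_bound U K F y hdeg h


variable {U K F}

/-- **descent of the torsion count along the diagonal family** -/
theorem card_torsion_of_diag {n g : ℕ} (hn : 0 < n) (hF : IsCurveOfGenus K F g) {y : F}
    (hy : (RatFunc K)⟮y⟯ = ⊤) (hF' : IsCurveOfGenus (KS U K) (FD U K F y) g)
    (hcard : Nat.card (Pic0.torsion (KS U K) (FD U K F y) n) = n ^ (2 * g)) :
    Nat.card (Pic0.torsion K F n) = n ^ (2 * g) := by
  set S := diagFam U K F hF.deg_eq_one hy with hS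
  have hN' : 0 < n ^ (2 * g) := pow_pos hn _
  haveI hfin' : Finite (Pic0.torsion (KS U K) (FD U K F y) n) :=
    Nat.finite_of_card_ne_zero (by omega)
  rcases Nat.lt_or_ge n 2 with h1 | h2
  · -- `n = 1`: the `1`-torsion is trivial
    have hn1 : n = 1 := by omega
    subst hn1
    rw [one_pow]
    haveI : Subsingleton (Pic0.torsion K F 1) := by
      refine ⟨fun a b => Subtype.ext ?_⟩
      have ha := Pic0.mem_torsion.mp a.2
      have hb := Pic0.mem_torsion.mp b.2
      simp only [Nat.cast_one, one_smul] at ha hb
      rw [ha, hb]
    exact Nat.card_unique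
  · -- upper bound via U6
    have hup : Finite (Pic0.torsion K F n) ∧ Nat.card (Pic0.torsion K F n) ≤ n ^ (2 * g) := by
      apply card_le_of_forall_not_injective
      intro e he
      obtain ⟨e', he'⟩ := S.exists_injective_of_injective hF' (N := n ^ (2 * g) + 1) h2
        (Eventually.of_forall fun _ => ⟨e, he⟩)
      have := Nat.card_le_card_of_injective e' he'
      rw [Nat.card_fin, hcard] at this
      omega
    obtain ⟨hfin, hle⟩ := hup
    -- lower bound via U5
    have hN : 0 < Nat.card (Pic0.torsion K F n) := Nat.card_pos
    obtain ⟨-, hle'⟩ := card_le_of_forall_not_injective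
      (S.not_injective_of_card hF' hN (Eventually.of_forall fun _ => rfl))
    rw [hcard] at hle'
    omega

end Fermat.Agent.S27lib.U.Diag
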