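/-
S27lib / U / Main (helper7).

Assembly of the ultrapower transfer T2:
* `exists_uFam`: helper9's construction (`S27lib/U/B/*`) packaged into the `UFam` interface;
* `countAt_germ`: `CountAt K₀ n g → CountAt (Germ U K₀) n g` for every ultrafilter `U` on every
  index type and every algebraically closed field `K₀` of characteristic zero.
-/
import Mathlib
import Fermat.Agent.S27lib.U.Count
import Fermat.Agent.S27lib.U.B.StepA

set_option autoImplicit false
set_option linter.unusedSectionVars false
set_option linter.style.haveILetI false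

noncomputable section

namespace Fermat.Agent.S27lib.U

open Filter IntermediateField AlgebraicCurve Module Fermat.Agent.S18lib

universe u v w

variable {ι : Type w} (U : Ultrafilter ι) (K₀ : Type u) [Field K₀] [IsAlgClosed K₀] [CharZero K₀]
  {F' : Type v} [Field F'] [Algebra (Germ (U : Filter ι) K₀) F']

/-- **U-B**: every function field over the ultrapower `K* = Germ U K₀` is the "ultraproduct" of a
family of function fields over `K₀`, in the sense of the interface `UFam`. -/
theorem exists_uFam (x : F') (hx : Transcendental (Germ (U : Filter ι) K₀) x)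
    [FiniteDimensional (Germ (U : Filter ι) K₀)⟮x⟯ F'] :
    ∃ S : UFam U K₀ F', S.x = x := by
  haveI : CharZero (Germ (U : Filter ι) K₀)⟮x⟯ :=
    charZero_of_injective_algebraMap
      (algebraMap (Germ (U : Filter ι) K₀) (Germ (U : Filter ι) K₀)⟮x⟯).injective
  haveI hsep : Algebra.IsSeparable (Germ (U : Filter ι) K₀)⟮x⟯ F' := inferInstance
  obtain ⟨y, hy⟩ := Field.exists_primitive_element (Germ (U : Filter ι) K₀)⟮x⟯ F'
  refine ⟨{
    Fc := fun i => B.Fc U K₀ x hx y i
    instField := fun i => inferInstance
    instAlgebra := fun i => inferInstance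
    comp := B.comp U K₀ x hx y
    comp_add := B.comp_add U K₀ x hx y hy
    comp_mul := B.comp_mul U K₀ x hx y hy
    comp_one := B.comp_one U K₀ x hx y hy
    comp_const := B.comp_const U K₀ x hx y hy
    x := x
    xc := B.xc U K₀ x hx y
    comp_x := B.comp_x U K₀ x hx y hy
    transc_x := hx
    finite_x := inferInstance
    sep_x := hsep
    transc_xc := B.transcendental_xc U K₀ x hx y
    finite_xc := fun i => B.finiteDimensional_Fc_adjoin U K₀ x hx y i
    sep_xc := fun i => by
      haveI : CharZero K₀⟮B.xc U K₀ x hx y i⟯ :=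
        charZero_of_injective_algebraMap (algebraMap K₀ K₀⟮B.xc U K₀ x hx y i⟯).injective
      haveI := B.finiteDimensional_Fc_adjoin U K₀ x hx y i
      infer_instance
    finrank_le := B.finrank_Fc_le U K₀ x hx y hy
    bounded := fun h h0 => by
      obtain ⟨C, hC⟩ := B.exists_ord_bound U K₀ x hx y hy h0
      refine ⟨(C : ℤ), ?_⟩
      filter_upwards [hC] with i hi Q
      exact (abs_le.mp (hi Q)).1 }, rfl⟩

/-- **T2 (ultrapower transfer)**: the torsion count passes from `K₀` to every ultrapower of `K₀`. -/
theorem countAt_germ {n g : ℕ} (hn : 0 < n) (H : CountAt.{u, u} K₀ n g) :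
    CountAt.{max u w, v} (Germ (U : Filter ι) K₀) n g := by
  intro F' _ _ x hx hfin _ hF'
  haveI := hfin
  obtain ⟨S, -⟩ := exists_uFam U K₀ x hx
  refine S.card_torsion hF' hn ?_
  filter_upwards [S.isCurveOfGenus_comp_eq hF'] with i hi
  letI := S.instField i
  letI := S.instAlgebra i
  exact H (S.Fc i) (S.xc i) (S.transc_xc i) (S.finite_xc i) (S.sep_xc i) hi

end Fermat.Agent.S27lib.U
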